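import Fermat.Agent.S56.Flat.Bridge
import Fermat.Agent.S56.Flat.Theta
import Fermat.Agent.S56.TD.Coc
import Fermat.Agent.S56.Loc.Ord

/-!
# S56 / Flat / Ord / Defs : matrix form of [FLAT-TAN]; Kummer generators over `K₀`; "peu ramifié".

`A = Ap p` the distinguished place over `p`, `D = Dp p`, `I = Ip p`, `v = A.valuation`, `ζ` a primitive `p`-th root of `1`.
* `FlatLift p rbar r₁` : `r₁ : GQ →* M2 k[ε]` lifts `rbar`, has constant determinant, is continuous and `HasFlat` on inertia.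
* `FlatTanM p h2 rbar` : the conclusion of [FLAT-TAN] for `FlatLift`s.
* `IsUT p rbar` : `rbar|_D = (* *; 0 z)`, `z|_I = 1`.
* `IsKum ζ f y` : `y ≠ 0`, `σ y = ζ^(f σ) y` for `σ ∈ I`, `v (y^p - 1) ≤ v p`  (normalised Kummer generator of `f : I → 𝔽_p(1)`).
* `Peu ζ u` : for every additive `ℓ : k → 𝔽_p`, `ℓ ∘ u` has a normalised Kummer generator.  (EXISTS-form: obviously `k`-linear.)
-/

set_option autoImplicit false

open ExtCitation

namespace Fermat.Agent.S56.Flat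

open Fermat.Agent.S56.Font
open CFT (levS levAll decomp Z1 B1 Qb)

/-- the distinguished place over `p` -/
noncomputable abbrev Ap (p : ℕ) [Fact p.Prime] : ValuationSubring Qb := primeLocalPlace (pPrime p)
/-- its decomposition group -/
noncomputable abbrev Dp (p : ℕ) [Fact p.Prime] : Subgroup GQ := decomp (pPrime p)
/-- its inertia group -/
noncomputable abbrev Ip (p : ℕ) [Fact p.Prime] : Subgroup GQ := inert (pPrime p)

variable {p : ℕ} [Fact p.Prime] {k : Type} [Field k]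

/-- flat lifts, in matrix form -/
structure FlatLift (p : ℕ) [Fact p.Prime] (rbar : GQ →* M2 k) (r₁ : GQ →* M2 (DualNumber k)) :
    Prop where
  lift : IsLift rbar r₁
  det : ∀ σ, (r₁ σ).det = TrivSqZeroExt.inl (rbar σ).det
  cont : GaloisFactorsThroughFiniteLevel r₁
  flat : HasFlat (Ap p).valuation (matAct (Ip p) r₁)

/-- the conclusion of [FLAT-TAN], in matrix form -/
def FlatTanM (p : ℕ) [Fact p.Prime] (h2 : (2 : k) ≠ 0) (rbar : GQ →* M2 k) : Prop :=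
  ∃ L : Submodule k (↥(Dp p) → sl2 k),
    B1loc (adRep rbar) (pPrime p) ≤ L ∧ L ≤ Z1loc (adRep rbar) (pPrime p) ∧
    Finite ↥L ∧ Nat.card ↥L ≤ Nat.card k ^ 4 ∧
    ∀ r₁ : GQ →* M2 (DualNumber k), FlatLift p rbar r₁ → resLoc k (pPrime p) (coc h2 r₁) ∈ L

/-- ordinary shape -/
structure IsUT (p : ℕ) [Fact p.Prime] (rbar : GQ →* M2 k) : Prop where
  tri : ∀ σ ∈ Dp p, rbar σ 1 0 = 0
  one : ∀ σ ∈ Ip p, rbar σ 1 1 = 1

/-- normalised Kummer generator over `K₀` -/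
def IsKum (ζ : Qb) (f : ↥(Dp p) → ZMod p) (y : Qb) : Prop :=
  y ≠ 0 ∧ (∀ σ : ↥(Dp p), (σ : GQ) ∈ Ip p → (σ : GQ) y = ζ ^ (f σ).val * y) ∧
    (Ap p).valuation (y ^ p - 1) ≤ (Ap p).valuation (p : Qb)

/-- peu ramifié -/
def Peu (ζ : Qb) (u : ↥(Dp p) → k) : Prop :=
  ∀ ℓ : k →+ ZMod p, ∃ y : Qb, IsKum ζ (fun σ => ℓ (u σ)) y

end Fermat.Agent.S56.Flat
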