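import Fermat.Agent.S56.Flat.Ord.Defs

/-!
# S56 / Flat / Ord / Conj  [ORD-CONJ], [ORD-FL] : conjugation invariance of `FlatTanM`; from `GaloisRepAdic` to `FlatLift`.

[ORD-CONJ] `rbar' := S53.conjRep g₀ rbar`.  `Ad : sl2 k ≃ₗ[k] sl2 k`, `m ↦ g₀ m g₀⁻¹`; `adRep rbar' σ ∘ Ad = Ad ∘ adRep rbar σ`.  `L := L'.comap (c ↦ Ad ∘ c)` (a linear equivalence of `D → sl2 k`, so cardinalities agree; it maps `B1loc`, `Z1loc` of `rbar` onto those of `rbar'`).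
   If `r₁` is a `FlatLift` of `rbar` then `r₁' := S53.conjRep (Units.map (TrivSqZeroExt.inlHom k k).mapMatrix.toMonoidHom g₀) r₁` is a `FlatLift` of `rbar'`: `flat` by F-SUB (`HasFlat.of_injective`) with `φ x = G₀⁻¹ *ᵥ x`;
   `cocM_conj_const` (`TD/Coc.lean`): `cocM r₁' σ = g₀ cocM r₁ σ g₀⁻¹`, so `coc h2 r₁' σ = Ad (coc h2 r₁ σ)` (`toSl2` commutes with `Ad`: the trace is invariant).
[ORD-FL] `cont`: `ρ₁.isAdicContinuous 2`, `maximalIdeal (DualNumber k) ^ 2 = ⊥`, so `ρ₁.ρ σ = 1` hence `r₁ σ = 1` on the fixing subgroup (see how `TD/Univ.lean` / `S53` get `MatCont` from `HasMatrix`); `flat`: `hasFlat_matAct` (F-BR2; `DualNumber k` is finite).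
-/

set_option autoImplicit false
set_option linter.unusedSectionVars false

open ExtCitation

namespace Fermat.Agent.S56.Flat

open Fermat.Agent.S56.Font
open CFT (levS levAll decomp Z1 B1 Qb)

section Ad

variable {k : Type} [Field k]

/-- `m ↦ g₀ m g₀⁻¹` on `sl₂`. -/
noncomputable def AdSl (g₀ : (M2 k)ˣ) : sl2 k ≃ₗ[k] sl2 k where
  toFun m := ⟨(g₀ : M2 k) * (m : M2 k) * ((g₀⁻¹ : (M2 k)ˣ) : M2 k), by
    rw [mem_sl2, Matrix.trace_mul_comm, ← mul_assoc, Units.inv_mul, one_mul]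
    exact m.2⟩
  invFun m := ⟨((g₀⁻¹ : (M2 k)ˣ) : M2 k) * (m : M2 k) * (g₀ : M2 k), by
    rw [mem_sl2, Matrix.trace_mul_comm, ← mul_assoc, Units.mul_inv, one_mul]
    exact m.2⟩
  map_add' a b := by
    apply Subtype.ext
    simp [mul_add, add_mul]
  map_smul' c a := by
    apply Subtype.ext
    simp
  left_inv m := by
    apply Subtype.ext
    show ((g₀⁻¹ : (M2 k)ˣ) : M2 k) * ((g₀ : M2 k) * (m : M2 k) * ((g₀⁻¹ : (M2 k)ˣ) : M2 k)) *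
      (g₀ : M2 k) = m
    rw [mul_assoc, mul_assoc, Units.inv_mul, mul_one, ← mul_assoc, Units.inv_mul, one_mul]
  right_inv m := by
    apply Subtype.ext
    show (g₀ : M2 k) * (((g₀⁻¹ : (M2 k)ˣ) : M2 k) * (m : M2 k) * (g₀ : M2 k)) *
      ((g₀⁻¹ : (M2 k)ˣ) : M2 k) = m
    rw [mul_assoc, mul_assoc, Units.mul_inv, mul_one, ← mul_assoc, Units.mul_inv, one_mul]

@[simp] theorem coe_AdSl (g₀ : (M2 k)ˣ) (m : sl2 k) :
    ((AdSl g₀ m : sl2 k) : M2 k) = (g₀ : M2 k) * (m : M2 k) * ((g₀⁻¹ : (M2 k)ˣ) : M2 k) := rfl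

theorem AdSl_adRep (g₀ : (M2 k)ˣ) (rbar : GQ →* M2 k) (σ : GQ) (m : sl2 k) :
    AdSl g₀ (adRep rbar σ m) = adRep (S53.conjRep g₀ rbar) σ (AdSl g₀ m) := by
  apply Subtype.ext
  rw [coe_AdSl, adRep_apply_coe, adRep_apply_coe, coe_AdSl, S53.conjRep_apply, S53.conjRep_apply]
  have hg : ((g₀⁻¹ : (M2 k)ˣ) : M2 k) * (g₀ : M2 k) = 1 := Units.inv_mul g₀
  calc (g₀ : M2 k) * (rbar σ * (m : M2 k) * rbar σ⁻¹) * ((g₀⁻¹ : (M2 k)ˣ) : M2 k)
      = (g₀ : M2 k) * rbar σ * 1 * (m : M2 k) * 1 * rbar σ⁻¹ * ((g₀⁻¹ : (M2 k)ˣ) : M2 k) := by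
        simp only [mul_one, mul_assoc]
    _ = _ := by rw [← hg]; simp only [mul_assoc]

theorem AdSl_toSl2 (h2 : (2 : k) ≠ 0) (g₀ : (M2 k)ˣ) (m : M2 k) :
    AdSl g₀ (toSl2 h2 m) = toSl2 h2 ((g₀ : M2 k) * m * ((g₀⁻¹ : (M2 k)ˣ) : M2 k)) := by
  apply Subtype.ext
  have ht : ((g₀ : M2 k) * m * ((g₀⁻¹ : (M2 k)ˣ) : M2 k)).trace = m.trace := by
    rw [Matrix.trace_mul_comm, ← mul_assoc, Units.inv_mul, one_mul]
  have hc : ∀ x : M2 k, ((toSl2 h2 x : sl2 k) : M2 k) = x - x.trace • ((2 : k)⁻¹ • (1 : M2 k)) :=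
    fun x => rfl
  rw [coe_AdSl, hc, hc, ht, mul_sub, sub_mul]
  congr 1
  rw [Matrix.mul_smul, Matrix.smul_mul, Matrix.mul_smul, Matrix.smul_mul, mul_one, Units.mul_inv]

end Ad

variable {p : ℕ} [Fact p.Prime] {k : Type} [Field k] [Finite k] [CharP k p]

local notation "liftU" g₀ =>
  Units.map (RingHom.toMonoidHom (RingHom.mapMatrix (TrivSqZeroExt.inlHom _ _))) g₀

omit [Finite k] [CharP k p] in
theorem FlatLift.conj {rbar : GQ →* M2 k} {r₁ : GQ →* M2 (DualNumber k)} (h : FlatLift p rbar r₁)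
    (g₀ : (M2 k)ˣ) : FlatLift p (S53.conjRep g₀ rbar) (S53.conjRep (liftU g₀) r₁) := by
  have e : ∀ τ, S53.conjRep (liftU g₀) r₁ τ =
      (g₀ : M2 k).map (TrivSqZeroExt.inl : k → DualNumber k) * r₁ τ *
        ((g₀⁻¹ : (M2 k)ˣ) : M2 k).map (TrivSqZeroExt.inl : k → DualNumber k) := by
    intro τ
    rw [S53.conjRep_apply, ← map_inv]
    rfl
  refine ⟨fun σ => ?_, fun σ => ?_, ?_, ?_⟩
  · rw [e, map_fst_mul, map_fst_mul, map_fst_map_inl, map_fst_map_inl, h.lift σ,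
      S53.conjRep_apply]
  · rw [S53.conjRep_apply, S53.conjRep_apply, Matrix.det_mul, Matrix.det_mul, Matrix.det_mul,
      Matrix.det_mul, h.det σ, mul_right_comm, ← Matrix.det_mul, Units.mul_inv, Matrix.det_one,
      one_mul, mul_right_comm, ← Matrix.det_mul, Units.mul_inv, Matrix.det_one, one_mul]
  · obtain ⟨L, hL, hr⟩ := h.cont
    refine ⟨L, hL, fun σ hσ => ?_⟩
    rw [S53.conjRep_apply, hr σ hσ, mul_one, Units.mul_inv]
  · let φ : (Fin 2 → DualNumber k) →+ (Fin 2 → DualNumber k) :=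
      (Matrix.mulVecLin (((liftU g₀)⁻¹ : (M2 (DualNumber k))ˣ) : M2 (DualNumber k))).toAddMonoidHom
    have hφ' : ∀ x, φ x = (((liftU g₀)⁻¹ : (M2 (DualNumber k))ˣ) : M2 (DualNumber k)).mulVec x :=
      fun _ => rfl
    refine HasFlat.of_injective φ ?_ (fun g x => ?_) h.flat
    · intro x y hxy
      have := congrArg (fun z => ((liftU g₀ : (M2 (DualNumber k))ˣ) : M2 (DualNumber k)).mulVec z) hxy
      simpa only [hφ', Matrix.mulVec_mulVec, Units.mul_inv, Matrix.one_mulVec] using this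
    · rw [hφ', hφ', matAct_apply, matAct_apply, Matrix.mulVec_mulVec, Matrix.mulVec_mulVec,
        S53.conjRep_apply, ← mul_assoc, ← mul_assoc, Units.inv_mul, one_mul]

omit [Finite k] [CharP k p] in
theorem coc_conjRep_const (h2 : (2 : k) ≠ 0) (g₀ : (M2 k)ˣ) (r₁ : GQ →* M2 (DualNumber k)) (σ : GQ) :
    coc h2 (S53.conjRep (liftU g₀) r₁) σ = AdSl g₀ (coc h2 r₁ σ) := by
  rw [coc, coc, cocM_conj_const, AdSl_toSl2]

/-- **[ORD-CONJ]** -/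
theorem flatTanM_of_conj (h2 : (2 : k) ≠ 0) (rbar : GQ →* M2 k) (g₀ : (M2 k)ˣ)
    (h : FlatTanM p h2 (S53.conjRep g₀ rbar)) : FlatTanM p h2 rbar := by
  obtain ⟨L', hB, hZ, hfin, hcard, hL'⟩ := h
  let AdC : (↥(Dp p) → sl2 k) ≃ₗ[k] (↥(Dp p) → sl2 k) :=
    LinearEquiv.piCongrRight fun _ => AdSl g₀
  have hAdC : ∀ c, AdC c = (AdSl g₀ : sl2 k →ₗ[k] sl2 k) ∘ c := fun c => rfl
  have hAd : ∀ (g : ↥(Dp p)) (v : sl2 k),
      (AdSl g₀ : sl2 k →ₗ[k] sl2 k) (locRep (adRep rbar) (pPrime p) g v) =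
      locRep (adRep (S53.conjRep g₀ rbar)) (pPrime p) g ((AdSl g₀ : sl2 k →ₗ[k] sl2 k) v) :=
    fun g v => AdSl_adRep g₀ rbar g v
  have hAds : ∀ (g : ↥(Dp p)) (v : sl2 k),
      ((AdSl g₀).symm : sl2 k →ₗ[k] sl2 k) (locRep (adRep (S53.conjRep g₀ rbar)) (pPrime p) g v) =
      locRep (adRep rbar) (pPrime p) g (((AdSl g₀).symm : sl2 k →ₗ[k] sl2 k) v) := by
    intro g v
    show (AdSl g₀).symm _ = _
    rw [LinearEquiv.symm_apply_eq]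
    have := hAd g ((AdSl g₀).symm v)
    simp only [LinearEquiv.coe_coe, LinearEquiv.apply_symm_apply] at this
    exact this.symm
  let E : ↥(L'.comap (AdC : (↥(Dp p) → sl2 k) →ₗ[k] (↥(Dp p) → sl2 k))) ≃ₗ[k] ↥L' :=
    LinearEquiv.ofSubmodule' AdC L'
  refine ⟨L'.comap (AdC : (↥(Dp p) → sl2 k) →ₗ[k] (↥(Dp p) → sl2 k)), ?_, ?_, ?_, ?_, ?_⟩
  · intro b hb
    exact hB (CFT.comp_mem_B1 (AdSl g₀ : sl2 k →ₗ[k] sl2 k) hAd hb)
  · intro c hc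
    have h1 := CFT.comp_mem_Z1 ((AdSl g₀).symm : sl2 k →ₗ[k] sl2 k) hAds (hZ hc)
    convert h1 using 1
    funext g
    show c g = (AdSl g₀).symm (AdSl g₀ (c g))
    rw [LinearEquiv.symm_apply_apply]
  · exact Finite.of_equiv _ E.symm.toEquiv
  · rw [Nat.card_congr E.toEquiv]
    exact hcard
  · intro r₁ hr₁
    have h1 := hL' _ (hr₁.conj g₀)
    show AdC (resLoc k (pPrime p) (coc h2 r₁)) ∈ L'
    convert h1 using 1
    funext g
    exact (coc_conjRep_const h2 g₀ r₁ g).symm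

/-- **[ORD-FL]** -/
theorem flatLift_of_isFlatAt (rbar : GQ →* M2 k) (ρ₁ : GaloisRepAdic (DualNumber k))
    (r₁ : GQ →* M2 (DualNumber k)) (hm : S53.HasMatrix ρ₁ r₁) (hl : IsLift rbar r₁)
    (hd : ∀ σ, (r₁ σ).det = TrivSqZeroExt.inl (rbar σ).det) (hf : ρ₁.IsFlatAt p) :
    FlatLift p rbar r₁ := by
  refine ⟨hl, hd, ?_, hasFlat_matAct (Fact.out : p.Prime)
    (liesOverPrime_primeLocalPlace (pPrime p)) ρ₁ r₁ hm hf⟩
  obtain ⟨b, hb⟩ := hm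
  obtain ⟨L, hL, h⟩ := ρ₁.isAdicContinuous 2
  refine ⟨L, hL, fun σ hσ => ?_⟩
  have h1 : ρ₁.ρ σ = 1 := by
    ext v
    have := h σ hσ v
    rw [maximalIdeal_dualNumber_sq, Submodule.bot_smul, Submodule.mem_bot, sub_eq_zero] at this
    exact this
  rw [← hb σ, h1]
  exact LinearMap.toMatrix_one b

end Fermat.Agent.S56.Flat
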