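import Fermat.Agent.S56.Flat.Ord.Defs
import Fermat.Agent.S56.Flat.Conn

/-!
# S56 / Flat / Ord / Lift  [ORD-LIFT] : a flat lift of an ordinary `rbar` is ordinary.

`IsUT p rbar`, `X = k[ε]²`, `α = matAct (Ip p) r₁`, `X₁ = aug α`, `NoTriv α` (F-CONN: `HasFlat.noTriv`, `hSH = Font.isSH_inertia`, `harch = arch_valuation`, `p • x = 0`).  On `I`: `rbar σ = (χ σ, b σ; 0, 1)`.
(i)   `X₁` is stable under the scalars of `k[ε]` and under `r₁ δ`, `δ ∈ D` (`δ (σ x - x) = (δ σ δ⁻¹)(δ x) - δ x`, `conj_mem_inertia`).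
(ii)  every `z ∈ X₁` has `(z 1).fst = 0`  (true for the generators `r₁ σ x - x` as `rbar σ 1 0 = 0`, `rbar σ 1 1 = 1`).
(iii) `τ₀ ∈ I`, `χ τ₀ ≠ 1` (`chiK_inert_ne_one`): `r₁ τ₀ e₁ - e₁ ∈ X₁` has first coordinate with `fst = χ τ₀ - 1 ≠ 0`, a unit of `k[ε]`.  Scale: `u₁ := (1, ε s) ∈ X₁`.
(iv)  `(0, ε t) ∈ X₁` ⟹ `t = 0`: `NoTriv` with `Y := {(ε a, 0)}` (stable: `r₁ σ (ε a e₁) = ε a χ σ e₁`), `z = (0, ε t)`: `r₁ σ z - z = (ε t b σ, 0) ∈ Y`; so `z ∈ Y`.
(v)   hence `X₁ = k[ε] u₁` (`z - z 0 • u₁ = (0, ε t)` by (ii)).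
(vi)  `m₀ := !![0, 0; -s, 0]`, `M := onePlus m₀` (`TD/Coc.lean`), `M u₁ = e₁`, `r₁' := M r₁ M⁻¹` (`S53.conjRep`).  `r₁' δ e₁ ∈ k[ε] e₁` (`δ ∈ D`), `(r₁' σ - 1) e₂ ∈ k[ε] e₁` (`σ ∈ I`): `r₁' δ 1 0 = 0`, `r₁' σ 1 1 = 1`.
(vii) `coc_conj` : `coc h2 r₁' = coc h2 r₁ - d01 (adRep rbar) m`, `m := toSl2 h2 m₀`.  `coc_coe_of_det` : `(coc h2 r₁' σ : M2 k) = cocM r₁' σ = (r₁' σ).map snd * rbar σ⁻¹`; second row of `(r₁' σ).map snd` is `(0, z₁)`,
      `rbar σ⁻¹` is upper triangular (`σ⁻¹ ∈ D`): entries `(1,0) = 0`, `(1,1) = z₁ * rbar σ⁻¹ 1 1`, `z₁ = 0` on `I`.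
-/

set_option autoImplicit false

open ExtCitation

namespace Fermat.Agent.S56.Flat

open Fermat.Agent.S56.Font
open CFT (levS levAll decomp Z1 B1 Qb)

section Gen

theorem aug_le_of_forall {Γ X : Type} [Group Γ] [AddCommGroup X] (α : Γ →* AddMonoid.End X)
    (S : AddSubgroup X) (h : ∀ g x, α g x - x ∈ S) : aug α ≤ S :=
  (AddSubgroup.closure_le _).2 (by rintro _ ⟨g, x, rfl⟩; exact h g x)

variable {k : Type} [Field k]

lemma dual_eq_inr {x : DualNumber k} (h : x.fst = 0) : x = TrivSqZeroExt.inr x.snd :=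
  TrivSqZeroExt.ext (by simpa using h) (by simp)

lemma dual_mul_inr (x : DualNumber k) (s : k) :
    x * TrivSqZeroExt.inr s = TrivSqZeroExt.inr (x.fst * s) := by
  apply TrivSqZeroExt.ext <;> simp [mul_comm]

lemma dual_inr_mul_inr (s t : k) :
    (TrivSqZeroExt.inr s : DualNumber k) * TrivSqZeroExt.inr t = 0 := by
  rw [dual_mul_inr]; simp

end Gen

variable {p : ℕ} [Fact p.Prime] {k : Type} [Field k] [Finite k] [CharP k p]

/-- steps (i)-(v): the line `X₁` -/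
theorem exists_line_of_flatLift (hp2 : p ≠ 2) (rbar : GQ →* M2 k)
    (hdet : ∀ σ, (rbar σ).det = (chiK p k σ : k)) (hUT : IsUT p rbar)
    {r₁ : GQ →* M2 (DualNumber k)} (h : FlatLift p rbar r₁) :
    ∃ s : k,
      (∀ δ ∈ Dp p, r₁ δ 1 0 + r₁ δ 1 1 * TrivSqZeroExt.inr s = r₁ δ 0 0 * TrivSqZeroExt.inr s) ∧
      (∀ σ ∈ Ip p, r₁ σ 1 1 - 1 = r₁ σ 0 1 * TrivSqZeroExt.inr s) := by
  have hp : p.Prime := Fact.out
  have hA : (Ap p).LiesOverPrime p := liesOverPrime_primeLocalPlace (pPrime p)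
  set α := matAct (Ip p) r₁ with hα
  have hfinD : Finite (DualNumber k) := inferInstanceAs (Finite (k × k))
  have hX : ∀ x : Fin 2 → DualNumber k, p • x = 0 := by
    intro x
    funext i
    rw [Pi.smul_apply, Pi.zero_apply, nsmul_eq_mul]
    have : ((p : ℕ) : DualNumber k) = 0 := by
      rw [← map_natCast (TrivSqZeroExt.inlHom k k) p, CharP.cast_eq_zero k p, map_zero]
    rw [this, zero_mul]
  have hNT : NoTriv α := HasFlat.noTriv hp hp2 (isSH_inertia hp hA) (arch_valuation hp hA) hX h.flat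
  have hfst : ∀ σ i j, (r₁ σ i j).fst = rbar σ i j := fun σ i j =>
    congrFun (congrFun (h.lift σ) i) j
  -- (i)
  have hsm : ∀ (c : DualNumber k), ∀ z ∈ aug α, c • z ∈ aug α := by
    intro c
    refine aug_le_of_forall α ((aug α).comap (DistribSMul.toAddMonoidHom _ c)) fun g x => ?_
    show c • (α g x - x) ∈ aug α
    have : c • (α g x - x) = α g (c • x) - c • x := by
      rw [smul_sub, hα, matAct_apply, matAct_apply, Matrix.mulVec_smul]
    rw [this]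
    exact sub_mem_aug α g _
  have hD : ∀ δ ∈ Dp p, ∀ z ∈ aug α, (r₁ δ).mulVec z ∈ aug α := by
    intro δ hδ
    refine aug_le_of_forall α ((aug α).comap (Matrix.mulVecLin (r₁ δ)).toAddMonoidHom)
      fun g x => ?_
    show (r₁ δ).mulVec (α g x - x) ∈ aug α
    have hg : δ * (g : GQ) * δ⁻¹ ∈ Ip p := conj_mem_inertia hp hA hδ g.2
    have : (r₁ δ).mulVec (α g x - x) = α ⟨_, hg⟩ ((r₁ δ).mulVec x) - (r₁ δ).mulVec x := by
      rw [Matrix.mulVec_sub, hα, matAct_apply, matAct_apply, Matrix.mulVec_mulVec,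
        Matrix.mulVec_mulVec, ← map_mul, ← map_mul, inv_mul_cancel_right]
    rw [this]
    exact sub_mem_aug α _ _
  -- (ii)
  have hii : ∀ z ∈ aug α, (z 1).fst = 0 := by
    let S : AddSubgroup (Fin 2 → DualNumber k) :=
      { carrier := {z | (z 1).fst = 0}
        zero_mem' := by simp
        add_mem' := by
          intro a b ha hb
          simp only [Set.mem_ofPred_eq] at ha hb ⊢
          simp [ha, hb]
        neg_mem' := by
          intro a ha
          simp only [Set.mem_ofPred_eq] at ha ⊢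
          simp [ha] }
    refine aug_le_of_forall α S fun g x => ?_
    show ((α g x - x) 1).fst = 0
    rw [hα, matAct_apply, Pi.sub_apply, Matrix.mulVec, dotProduct, Fin.sum_univ_two]
    simp only [TrivSqZeroExt.fst_sub, TrivSqZeroExt.fst_add, TrivSqZeroExt.fst_mul, hfst,
      hUT.tri g (inert_le_decomp _ g.2), hUT.one g g.2]
    ring
  -- (iii)
  obtain ⟨τ₀, hτ₀, hχ⟩ := chiK_inert_ne_one (k := k) hp2
  have hx0 : rbar τ₀ 0 0 = (chiK p k τ₀ : k) := by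
    rw [← hdet τ₀, Matrix.det_fin_two, hUT.one τ₀ hτ₀, hUT.tri τ₀ (inert_le_decomp _ hτ₀)]
    ring
  set w : Fin 2 → DualNumber k := α ⟨τ₀, hτ₀⟩ ![1, 0] - ![1, 0] with hw
  have hwmem : w ∈ aug α := sub_mem_aug α _ _
  have hw0 : (w 0).fst ≠ 0 := by
    rw [hw, hα, matAct_apply, Pi.sub_apply, Matrix.mulVec, dotProduct, Fin.sum_univ_two]
    simp only [Matrix.cons_val_zero, Matrix.cons_val_one, mul_one, mul_zero, add_zero,
      TrivSqZeroExt.fst_sub, TrivSqZeroExt.fst_one, hfst, hx0]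
    intro h0
    exact hχ (Units.ext (sub_eq_zero.1 h0))
  obtain ⟨c, hc⟩ : ∃ c : DualNumber k, c * w 0 = 1 := by
    have hu : IsUnit (w 0) := TrivSqZeroExt.isUnit_iff_isUnit_fst.2 (isUnit_iff_ne_zero.2 hw0)
    obtain ⟨u, hu⟩ := hu
    exact ⟨((u⁻¹ : (DualNumber k)ˣ) : DualNumber k), by rw [← hu, Units.inv_mul]⟩
  set u₁ : Fin 2 → DualNumber k := c • w with hu₁
  have hu₁mem : u₁ ∈ aug α := hsm c w hwmem
  have hu₁0 : u₁ 0 = 1 := hc
  set s : k := (u₁ 1).snd with hs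
  have hu₁1 : u₁ 1 = TrivSqZeroExt.inr s := dual_eq_inr (hii u₁ hu₁mem)
  -- (iv)
  have hiv : ∀ z ∈ aug α, z 0 = 0 → z 1 = 0 := by
    intro z hz hz0
    let Y : AddSubgroup (Fin 2 → DualNumber k) :=
      { carrier := {y | y 1 = 0 ∧ (y 0).fst = 0}
        zero_mem' := by simp
        add_mem' := by
          rintro a b ⟨ha, ha'⟩ ⟨hb, hb'⟩
          exact ⟨by simp [ha, hb], by simp [ha', hb']⟩
        neg_mem' := by
          rintro a ⟨ha, ha'⟩
          exact ⟨by simp [ha], by simp [ha']⟩ }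
    have hz1 : z 1 = TrivSqZeroExt.inr (z 1).snd := dual_eq_inr (hii z hz)
    have hzY : z ∈ Y := by
      refine hNT Y ?_ z hz ?_
      · rintro g y ⟨hy1, hy0⟩
        have hy0' := dual_eq_inr hy0
        constructor
        · rw [hα, matAct_apply, Matrix.mulVec, dotProduct, Fin.sum_univ_two, hy1, mul_zero,
            add_zero, hy0', dual_mul_inr, hfst, hUT.tri g (inert_le_decomp _ g.2), zero_mul,
            TrivSqZeroExt.inr_zero]
        · rw [hα, matAct_apply, Matrix.mulVec, dotProduct, Fin.sum_univ_two, hy1, mul_zero,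
            add_zero, TrivSqZeroExt.fst_mul, hy0, mul_zero]
      · intro g
        constructor
        · rw [hα, matAct_apply, Pi.sub_apply, Matrix.mulVec, dotProduct, Fin.sum_univ_two, hz0,
            mul_zero, zero_add, hz1, dual_mul_inr, hfst, hUT.one g g.2, one_mul, sub_self]
        · rw [hα, matAct_apply, Pi.sub_apply, Matrix.mulVec, dotProduct, Fin.sum_univ_two, hz0,
            mul_zero, zero_add, sub_zero, hz1, dual_mul_inr, TrivSqZeroExt.fst_inr]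
    exact hzY.1
  -- (v)
  have hv : ∀ z ∈ aug α, z 1 = z 0 * TrivSqZeroExt.inr s := by
    intro z hz
    have h1 : z - z 0 • u₁ ∈ aug α := sub_mem hz (hsm _ _ hu₁mem)
    have h2 := hiv _ h1 (by
      rw [Pi.sub_apply, Pi.smul_apply, hu₁0, smul_eq_mul, mul_one, sub_self])
    rw [Pi.sub_apply, Pi.smul_apply, hu₁1, smul_eq_mul, sub_eq_zero] at h2
    exact h2
  have hu₁eq : u₁ = ![1, TrivSqZeroExt.inr s] := by
    funext i
    fin_cases i
    · exact hu₁0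
    · exact hu₁1
  refine ⟨s, fun δ hδ => ?_, fun σ hσ => ?_⟩
  · have h1 := hv _ (hD δ hδ u₁ hu₁mem)
    rw [hu₁eq, Matrix.mulVec, Matrix.mulVec, dotProduct, dotProduct, Fin.sum_univ_two,
      Fin.sum_univ_two] at h1
    simp only [Matrix.cons_val_zero, Matrix.cons_val_one, mul_one] at h1
    rw [h1, add_mul, mul_assoc, dual_inr_mul_inr, mul_zero, add_zero]
  · have h1 := hv _ (sub_mem_aug α ⟨σ, hσ⟩ ![0, 1])
    rw [hα, matAct_apply, Pi.sub_apply, Pi.sub_apply, Matrix.mulVec, Matrix.mulVec, dotProduct,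
      dotProduct, Fin.sum_univ_two, Fin.sum_univ_two] at h1
    simpa using h1

/-- **[ORD-LIFT]** -/
theorem exists_upper_of_flatLift (hp2 : p ≠ 2) (h2 : (2 : k) ≠ 0) (rbar : GQ →* M2 k)
    (hdet : ∀ σ, (rbar σ).det = (chiK p k σ : k)) (hUT : IsUT p rbar)
    {r₁ : GQ →* M2 (DualNumber k)} (h : FlatLift p rbar r₁) :
    ∃ m : sl2 k, ∀ σ ∈ Dp p,
      ((coc h2 r₁ σ - (adRep rbar σ m - m) : sl2 k) : M2 k) 1 0 = 0 ∧
      (σ ∈ Ip p → ((coc h2 r₁ σ - (adRep rbar σ m - m) : sl2 k) : M2 k) 1 1 = 0) := by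
  obtain ⟨s, hA, hB⟩ := exists_line_of_flatLift hp2 rbar hdet hUT h
  set m₀ : M2 k := !![0, 0; -s, 0] with hm₀
  let M : (M2 (DualNumber k))ˣ := ⟨onePlus m₀, onePlus (-m₀), onePlus_mul_neg _, by
    have := onePlus_mul_neg (-m₀)
    rwa [neg_neg] at this⟩
  have hMc : (M : M2 (DualNumber k)) = onePlus m₀ := rfl
  have hMi : ((M⁻¹ : (M2 (DualNumber k))ˣ) : M2 (DualNumber k)) = onePlus (-m₀) := rfl
  set r₁' := S53.conjRep M r₁ with hr₁'
  have hc : ∀ σ, (M : M2 (DualNumber k)) * r₁ σ = r₁' σ * (M : M2 (DualNumber k)) :=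
    S53.mul_eq_conjRep_mul M r₁
  have hMfst : (M : M2 (DualNumber k)).map TrivSqZeroExt.fst = 1 := map_fst_onePlus m₀
  have hl' : IsLift rbar r₁' := by
    intro σ
    have h1 := congrArg (fun X : M2 (DualNumber k) => X.map TrivSqZeroExt.fst) (hc σ)
    simp only [map_fst_mul, hMfst, one_mul, mul_one, h.lift σ] at h1
    exact h1.symm
  have hd' : ∀ σ, (r₁' σ).det = TrivSqZeroExt.inl (rbar σ).det := fun σ => by
    rw [← h.det σ]; exact (det_eq_of_conj M (hc σ)).symm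
  have hcoc := coc_conj h2 h.lift (M : M2 (DualNumber k)) hMfst hc
  have hM1 : onePlus m₀ = !![1, 0; -TrivSqZeroExt.inr s, 1] := by
    rw [onePlus, hm₀]
    refine Matrix.ext fun i j => ?_
    fin_cases i <;> fin_cases j <;> simp
  have hM2 : onePlus (-m₀) = !![1, 0; TrivSqZeroExt.inr s, 1] := by
    rw [onePlus, hm₀]
    refine Matrix.ext fun i j => ?_
    fin_cases i <;> fin_cases j <;> simp
  have hent : ∀ σ, r₁' σ 1 0 = r₁ σ 1 0 + r₁ σ 1 1 * TrivSqZeroExt.inr s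
        - r₁ σ 0 0 * TrivSqZeroExt.inr s
        - r₁ σ 0 1 * ((TrivSqZeroExt.inr s : DualNumber k) * TrivSqZeroExt.inr s) ∧
      r₁' σ 1 1 = r₁ σ 1 1 - r₁ σ 0 1 * TrivSqZeroExt.inr s := by
    intro σ
    rw [hr₁', S53.conjRep_apply, hMc, hMi, hM1, hM2]
    constructor
    · simp only [Matrix.mul_apply, Fin.sum_univ_two, Matrix.of_apply, Matrix.cons_val_zero,
        Matrix.cons_val_one, Matrix.cons_val', Matrix.cons_val_fin_one]
      ring
    · simp only [Matrix.mul_apply, Fin.sum_univ_two, Matrix.of_apply, Matrix.cons_val_zero,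
        Matrix.cons_val_one, Matrix.cons_val', Matrix.cons_val_fin_one]
      ring
  refine ⟨toSl2 h2 m₀, fun σ hσ => ?_⟩
  have e : coc h2 r₁ σ - (adRep rbar σ (toSl2 h2 m₀) - toSl2 h2 m₀) = coc h2 r₁' σ := by
    rw [hcoc, Pi.sub_apply, CFT.d01_apply, hMc, map_snd_onePlus]
  have h10 : r₁' σ 1 0 = 0 := by
    rw [(hent σ).1, hA σ hσ, dual_inr_mul_inr, mul_zero, sub_self, sub_zero]
  have hinv : rbar σ⁻¹ 1 0 = 0 := hUT.tri _ ((Dp p).inv_mem hσ)
  rw [e, coc_coe_of_det h2 hl' hd' σ, cocM, hl' σ⁻¹]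
  constructor
  · rw [Matrix.mul_apply, Fin.sum_univ_two, Matrix.map_apply, Matrix.map_apply, h10, hinv]
    simp
  · intro hσI
    have h11 : r₁' σ 1 1 = 1 := by
      rw [(hent σ).2, ← hB σ hσI]
      ring
    rw [Matrix.mul_apply, Fin.sum_univ_two, Matrix.map_apply, Matrix.map_apply, h10, h11]
    simp

end Fermat.Agent.S56.Flat
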