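import Fermat.Agent.S56.Flat.Ord.Defs
import Fermat.Agent.CFT.Global.GC3.Setup

/-!
# S56 / Flat / Ord / PeuOf  [ORD-PEU] : a `k(χ)`-valued cocycle on inertia which is split by a flat datum is peu ramifié.

`u (σ τ) = u σ + χ σ u τ` on `I`, `u σ = 0` if `α σ = 1`.  Fix `ℓ : k →+ ZMod p`, `f := ℓ ∘ u`; `f (σ τ) = f σ + χ σ f τ` in `ZMod p` (`(chiK p k σ : k)` is the cast of `cycloChar p σ`; `ℓ` is additive hence `ZMod p`-linear).
(1) `F σ := ζ ^ (f σ).val` is a 1-cocycle `I → ℚ̄ˣ`: `F (σ τ) = F σ * σ (F τ)` (`σ ζ = ζ ^ (cycloChar p σ).val`).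
(2) continuity: `ker α ⊇ I ∩ (fixing subgroup of a finite extension)`: `H` an order, `s` its generators (`fg`), `E := ℚ(b x | b ∈ s, x ∈ X)`; if `σ ∈ I` fixes `E` then `a (α σ x) = σ (a x) = a x` for all `a ∈ H`
    (`a = ∑ c_b b`, `c_b` fixed by `I`), so `α σ x = x` (`IsEqOrder.sep`).  Enlarge `E` to a finite normal extension.  `F (σ s) = F σ` for `s ∈ ker α`.
(3) Hilbert 90: `CFT.h90_all ((Ip p).subtype)` (`CFT/Global/GC3/Setup.lean`): `y₀ ≠ 0` with `σ y₀ = F σ * y₀` (or its inverse).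
(4) `y₀ ^ p` is fixed by `I`, `y₀` is fixed by `ker α`: `HasFlat.kum0` (F-KUM0) gives `r ≠ 0` fixed by `I` with `v ((y₀ r)^p - 1) ≤ v p`.  `y := y₀ r`.
-/

set_option autoImplicit false

open ExtCitation

namespace Fermat.Agent.S56.Flat

open Fermat.Agent.S56.Font
open CFT (levS levAll decomp Z1 B1 Qb)

variable {p : ℕ} [Fact p.Prime] {k : Type} [Field k] [Finite k] [CharP k p] {ζ : Qb}

/-- a finite subset of `ℚ̄` is fixed by a level. -/
theorem exists_levAll_fixing_finset (T : Finset Qb) :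
    ∃ U ∈ levAll.carrier, ∀ s ∈ U, ∀ t ∈ T, s t = t := by
  classical
  induction T using Finset.induction_on with
  | empty =>
    obtain ⟨U, hU⟩ := levAll.nonempty
    exact ⟨U, hU, fun _ _ t ht => absurd ht (Finset.notMem_empty t)⟩
  | insert a T _ ih =>
    obtain ⟨U, hU, h⟩ := ih
    obtain ⟨U', hU', h'⟩ := CFT.LS.exists_levAll_fixing a
    obtain ⟨W, hW, h1, h2⟩ := levAll.directed U hU U' hU'
    refine ⟨W, hW, fun s hs t ht => ?_⟩
    rcases Finset.mem_insert.1 ht with rfl | ht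
    · exact h' s (h2 hs)
    · exact h s (h1 hs) t ht

/-- the kernel of the action of a flat datum contains a level. -/
theorem HasFlat.exists_levAll_le_ker {G : Subgroup GQ} {Γ₀ : Type}
    [LinearOrderedCommGroupWithZero Γ₀] {v : Valuation Qb Γ₀} {X : Type} [AddCommGroup X]
    [Finite X] {α : ↥G →* AddMonoid.End X} (hα : HasFlat v α) :
    ∃ U ∈ levAll.carrier, ∀ s : ↥G, (s : GQ) ∈ U → α s = 1 := by
  classical
  have : Fintype X := Fintype.ofFinite X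
  obtain ⟨H, hH⟩ := hα
  obtain ⟨S, hS, hgen⟩ := hH.fg
  obtain ⟨U, hU, hfix⟩ := exists_levAll_fixing_finset
    (S.biUnion fun b => Finset.univ.image fun x : X => b x)
  refine ⟨U, hU, fun s hs => ?_⟩
  ext x
  by_contra hne
  obtain ⟨a, ha, hax⟩ := hH.sep (α s x) x hne
  apply hax
  rw [hH.eqv a ha s x]
  obtain ⟨c, hc, hac⟩ := hgen a ha
  rw [hac]
  simp only [Finset.sum_apply, Pi.smul_apply, smul_eq_mul, Finset.smul_sum, smul_mul']
  refine Finset.sum_congr rfl fun b hb => ?_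
  rw [(hc b).1 s]
  congr 1
  exact hfix s hs (b x) (Finset.mem_biUnion.2 ⟨b, hb, Finset.mem_image.2 ⟨x, Finset.mem_univ x, rfl⟩⟩)

/-- **[ORD-PEU]** -/
theorem peu_of_hasFlat (hζ : ζ ^ p = 1) {X : Type} [AddCommGroup X] [Finite X]
    (hX : ∀ x : X, p • x = 0) (α : ↥(Ip p) →* AddMonoid.End X)
    (hα : HasFlat (Ap p).valuation α) (u : ↥(Dp p) → k)
    (hu : ∀ σ τ : ↥(Dp p), (σ : GQ) ∈ Ip p → (τ : GQ) ∈ Ip p →
      u (σ * τ) = u σ + (chiK p k σ : k) * u τ)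
    (hker : ∀ (σ : ↥(Dp p)) (hσ : (σ : GQ) ∈ Ip p), α ⟨σ, hσ⟩ = 1 → u σ = 0) : Peu ζ u := by
  intro ℓ
  have hp : p.Prime := Fact.out
  have : NeZero p := ⟨hp.ne_zero⟩
  have hA : (Ap p).LiesOverPrime p := CFT.LS.liesOverPrime_primeLocalPlace (pPrime p)
  by_cases hζ1 : ζ = 1
  · refine ⟨1, one_ne_zero, fun σ _ => ?_, ?_⟩
    · rw [hζ1, one_pow, map_one, one_mul]
    · rw [one_pow, sub_self, map_zero]
      exact zero_le
  have hprim : IsPrimitiveRoot ζ p := by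
    rcases (Nat.dvd_prime hp).1 (orderOf_dvd_of_pow_eq_one hζ) with h | h
    · exact absurd (orderOf_eq_one_iff.1 h) hζ1
    · rw [← h]
      exact IsPrimitiveRoot.orderOf ζ
  let ι : ↥(Ip p) → ↥(Dp p) := fun σ => ⟨σ, inert_le_decomp (pPrime p) σ.2⟩
  let c : ↥(Ip p) → ZMod p := fun σ => ℓ (u (ι σ))
  have hℓ : ∀ (n : ℕ) (x : k), ℓ ((n : k) * x) = (n : ZMod p) * ℓ x := by
    intro n x
    rw [← nsmul_eq_mul, map_nsmul, nsmul_eq_mul]
  have hc : ∀ σ τ : ↥(Ip p),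
      c (σ * τ) = ((cycloChar p (σ : GQ) : (ZMod p)ˣ) : ZMod p) * c τ + c σ := by
    intro σ τ
    have h1 : ι (σ * τ) = ι σ * ι τ := rfl
    show ℓ (u (ι (σ * τ))) = _ * ℓ (u (ι τ)) + ℓ (u (ι σ))
    rw [h1, hu (ι σ) (ι τ) σ.2 τ.2, map_add, chiK_coe, hℓ, ZMod.natCast_val, ZMod.cast_id, add_comm]
  have hlc : (levAll.comap (Ip p).subtype).LC1 c := by
    obtain ⟨U, hU, hUk⟩ := hα.exists_levAll_le_ker
    refine ⟨_, ⟨U, hU, rfl⟩, fun g s hs => ?_⟩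
    have h0 : c s = 0 := by
      show ℓ (u (ι s)) = 0
      rw [hker (ι s) s.2 (hUk s hs), map_zero]
    rw [hc, h0, mul_zero, zero_add]
  obtain ⟨y₀, hy0, hy⟩ := H1Mu.exists_h90 hprim (Ip p) c hc hlc
  obtain ⟨r, hr0, hrf, hr⟩ := HasFlat.kum0 hp (isSH_inertia hp hA) (arch_valuation hp hA) hX hα hy0
    (fun g => by
      show (g : GQ) (y₀ ^ p) = y₀ ^ p
      rw [map_pow, hy g, mul_pow, ← pow_mul, mul_comm _ p, pow_mul, hζ, one_pow, one_mul])
    (fun g hg => by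
      show (g : GQ) y₀ = y₀
      have h0 : c g = 0 := by
        show ℓ (u (ι g)) = 0
        rw [hker (ι g) g.2 hg, map_zero]
      rw [hy g, h0, ZMod.val_zero, pow_zero, one_mul])
  refine ⟨y₀ * r, mul_ne_zero hy0 hr0, fun σ hσ => ?_, hr⟩
  have h1 : (σ : GQ) r = r := hrf ⟨σ, hσ⟩
  rw [map_mul, h1, hy ⟨σ, hσ⟩, mul_assoc]

end Fermat.Agent.S56.Flat
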