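import Fermat.Agent.S56.Flat.Ord.Defs

/-!
# S56 / Flat / Ord / Shape  [ORD-SHAPE] : `rbar|_D` reducible + flat + `det = χ` ⟹ ordinary shape.

`X = k²` with `α = matAct (Ip p) rbar`, `hSH = Font.isSH_inertia`, `harch = arch_valuation`, `p • x = 0` (`CharP k p`).  `w ≠ 0`, `rbar σ w = η σ w` for `σ ∈ D`; `η : D → kˣ` is multiplicative.
(0) `η σ ^ (p - 1) = 1` for `σ ∈ I`: `tame_frob` (`Tame/Main.lean`) for `h = η|_I : I →* kˣ` (`N = #k - 1`, continuity from `hcont`): `η (Φ σ Φ⁻¹) = η σ ^ p`, and `η (Φ σ Φ⁻¹) = η σ` (`η` is a character of `D`, `kˣ` commutative).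
    So `η σ` is a root of `X^(p-1) - 1`, i.e. `η σ = (n σ : k)` for some `n σ : ℕ` (`ZMod p ⊆ k`: the `p - 1` non zero elements of the prime field are all the roots), and `rbar σ w = n σ • w`.
CASE 1: `η σ ≠ 1` for some `σ ∈ I`.  `HasFlat.smul_zeta_eq` (F-TH) with `x = w`: `σ ζ = ζ ^ n σ` for all `σ ∈ I`, so `χ σ = n σ = η σ` on `I`.  `g₀` := the matrix with `g₀ w = e₁` (complete `w` to a basis).
    `g₀ rbar σ g₀⁻¹ = (η σ, *; 0, z σ)` on `D`, `η z = det = χ`: `z = 1` on `I`.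
CASE 2: `η = 1` on `I`.  `X₁ := aug α`.  It is stable under `k` (`t (σ x - x) = σ (t x) - t x`) and under `D` (`δ (σ x - x) = (δ σ δ⁻¹)(δ x) - δ x`, `conj_mem_inertia`), `≠ 0` (`rbar σ ≠ 1` for some `σ ∈ I` since `det rbar = χ`, `chiK_inert_ne_one`).
    `HasFlat.noTriv` (F-CONN) with `Y = ⊥`: an element of `X₁` fixed by `I` is `0`; so `t w ∉ X₁` for `t ≠ 0`.  Take `w' ∈ X₁`, `w' ≠ 0`: `(w', w)` is a basis; `X₁ = k w'` (a `k`-subspace of `k²` meeting `k w` trivially).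
    `g₀ w' = e₁`, `g₀ w = e₂`: `g₀ rbar σ g₀⁻¹ = diag (*, η σ)` on `D`.
-/

set_option autoImplicit false
set_option linter.unusedSectionVars false

open ExtCitation

namespace Fermat.Agent.S56.Flat

open Fermat.Agent.S56.Font
open CFT (levS levAll decomp Z1 B1 Qb)

section LinAlg

variable {k : Type} [Field k]

/-- the matrix with columns `u₁`, `u₂` -/
def colMat (u₁ u₂ : Fin 2 → k) : M2 k := !![u₁ 0, u₂ 0; u₁ 1, u₂ 1]

theorem colMat_mulVec (u₁ u₂ y : Fin 2 → k) :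
    (colMat u₁ u₂).mulVec y = y 0 • u₁ + y 1 • u₂ := by
  funext i
  fin_cases i
  · show dotProduct _ _ = _
    simp [colMat, dotProduct, Fin.sum_univ_two]
    ring
  · show dotProduct _ _ = _
    simp [colMat, dotProduct, Fin.sum_univ_two]
    ring

theorem det_colMat (u₁ u₂ : Fin 2 → k) : (colMat u₁ u₂).det = u₁ 0 * u₂ 1 - u₂ 0 * u₁ 1 := by
  rw [colMat, Matrix.det_fin_two_of]

/-- a non zero vector is part of a basis -/
theorem exists_det_colMat_ne_zero {w : Fin 2 → k} (hw : w ≠ 0) :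
    ∃ u : Fin 2 → k, (colMat w u).det ≠ 0 := by
  by_cases h0 : w 0 = 0
  · have h1 : w 1 ≠ 0 := by
      intro h1
      apply hw
      funext i
      fin_cases i
      · exact h0
      · exact h1
    refine ⟨![1, 0], ?_⟩
    rw [det_colMat]
    simpa using h1
  · refine ⟨![0, 1], ?_⟩
    rw [det_colMat]
    simpa using h0

/-- dependent vectors -/
theorem exists_smul_of_det_colMat_eq_zero {w' w : Fin 2 → k} (hw : w ≠ 0)
    (h : (colMat w' w).det = 0) : ∃ t : k, w' = t • w := by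
  rw [det_colMat, sub_eq_zero] at h
  by_cases h0 : w 0 = 0
  · have h1 : w 1 ≠ 0 := by
      intro h1
      apply hw
      funext i
      fin_cases i
      · exact h0
      · exact h1
    refine ⟨w' 1 / w 1, ?_⟩
    funext i
    fin_cases i
    · show w' 0 = w' 1 / w 1 * w 0
      rw [h0, mul_zero]
      rw [h0, zero_mul] at h
      exact (mul_eq_zero.1 h).resolve_right h1
    · show w' 1 = w' 1 / w 1 * w 1
      rw [div_mul_cancel₀ _ h1]
  · refine ⟨w' 0 / w 0, ?_⟩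
    funext i
    fin_cases i
    · show w' 0 = w' 0 / w 0 * w 0
      rw [div_mul_cancel₀ _ h0]
    · show w' 1 = w' 0 / w 0 * w 1
      field_simp
      linear_combination -h

/-- the unit `P⁻¹` for `P = colMat u₁ u₂` -/
noncomputable def colUnit (u₁ u₂ : Fin 2 → k) (h : (colMat u₁ u₂).det ≠ 0) : (M2 k)ˣ :=
  (Matrix.nonsingInvUnit (colMat u₁ u₂) (isUnit_iff_ne_zero.2 h))⁻¹

theorem colUnit_inv_coe (u₁ u₂ : Fin 2 → k) (h : (colMat u₁ u₂).det ≠ 0) :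
    (((colUnit u₁ u₂ h)⁻¹ : (M2 k)ˣ) : M2 k) = colMat u₁ u₂ := by
  rw [colUnit, inv_inv]
  rfl

/-- the columns of `P⁻¹ m P` -/
theorem conj_col (u₁ u₂ : Fin 2 → k) (h : (colMat u₁ u₂).det ≠ 0) (m : M2 k) (j : Fin 2) :
    m.mulVec (![u₁, u₂] j) =
      (((colUnit u₁ u₂ h : (M2 k)ˣ) : M2 k) * m * (((colUnit u₁ u₂ h)⁻¹ : (M2 k)ˣ) : M2 k)) 0 j • u₁ +
      (((colUnit u₁ u₂ h : (M2 k)ˣ) : M2 k) * m * (((colUnit u₁ u₂ h)⁻¹ : (M2 k)ˣ) : M2 k)) 1 j • u₂ := by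
  have hP : (((colUnit u₁ u₂ h)⁻¹ : (M2 k)ˣ) : M2 k) = colMat u₁ u₂ := colUnit_inv_coe u₁ u₂ h
  obtain ⟨N, hN⟩ : ∃ N : M2 k, N = ((colUnit u₁ u₂ h : (M2 k)ˣ) : M2 k) * m *
    (((colUnit u₁ u₂ h)⁻¹ : (M2 k)ˣ) : M2 k) := ⟨_, rfl⟩
  rw [← hN]
  have e1 : (colMat u₁ u₂).mulVec (Pi.single j 1) = ![u₁, u₂] j := by
    rw [colMat_mulVec]
    fin_cases j <;> simp
  have e2 : colMat u₁ u₂ * N = m * colMat u₁ u₂ := by
    rw [hN, ← hP, ← mul_assoc, ← mul_assoc, Units.inv_mul, one_mul]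
  have e3 : (colMat u₁ u₂ * N).mulVec (Pi.single j 1) = (m * colMat u₁ u₂).mulVec (Pi.single j 1) := by
    rw [e2]
  rw [← Matrix.mulVec_mulVec, ← Matrix.mulVec_mulVec, e1, Matrix.mulVec_single_one,
    colMat_mulVec] at e3
  exact e3.symm

theorem shape_eq_of_comb_eq {u₁ u₂ : Fin 2 → k} (h : (colMat u₁ u₂).det ≠ 0) {a b a' b' : k}
    (e : a • u₁ + b • u₂ = a' • u₁ + b' • u₂) : a = a' ∧ b = b' := by
  rw [det_colMat] at h
  have e0 : a * u₁ 0 + b * u₂ 0 = a' * u₁ 0 + b' * u₂ 0 := congrFun e 0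
  have e1 : a * u₁ 1 + b * u₂ 1 = a' * u₁ 1 + b' * u₂ 1 := congrFun e 1
  constructor
  · rw [← sub_eq_zero]
    refine (mul_eq_zero.1 ?_).resolve_right h
    linear_combination u₂ 1 * e0 - u₂ 0 * e1
  · rw [← sub_eq_zero]
    refine (mul_eq_zero.1 ?_).resolve_right h
    linear_combination u₁ 0 * e1 - u₁ 1 * e0

/-- first column of `P⁻¹ m P` if `u₁` is an eigenvector -/
theorem conj_col_zero {u₁ u₂ : Fin 2 → k} (h : (colMat u₁ u₂).det ≠ 0) {m : M2 k} {c : k}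
    (hc : m.mulVec u₁ = c • u₁) :
    (((colUnit u₁ u₂ h : (M2 k)ˣ) : M2 k) * m * (((colUnit u₁ u₂ h)⁻¹ : (M2 k)ˣ) : M2 k)) 0 0 = c ∧
    (((colUnit u₁ u₂ h : (M2 k)ˣ) : M2 k) * m * (((colUnit u₁ u₂ h)⁻¹ : (M2 k)ˣ) : M2 k)) 1 0 = 0 := by
  have e := conj_col u₁ u₂ h m 0
  have e' : m.mulVec (![u₁, u₂] 0) = c • u₁ + (0 : k) • u₂ := by
    rw [zero_smul, add_zero]; exact hc
  exact shape_eq_of_comb_eq h (e.symm.trans e')

/-- second column of `P⁻¹ m P` if `u₂` is an eigenvector -/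
theorem conj_col_one {u₁ u₂ : Fin 2 → k} (h : (colMat u₁ u₂).det ≠ 0) {m : M2 k} {c : k}
    (hc : m.mulVec u₂ = c • u₂) :
    (((colUnit u₁ u₂ h : (M2 k)ˣ) : M2 k) * m * (((colUnit u₁ u₂ h)⁻¹ : (M2 k)ˣ) : M2 k)) 0 1 = 0 ∧
    (((colUnit u₁ u₂ h : (M2 k)ˣ) : M2 k) * m * (((colUnit u₁ u₂ h)⁻¹ : (M2 k)ˣ) : M2 k)) 1 1 = c := by
  have e := conj_col u₁ u₂ h m 1
  have e' : m.mulVec (![u₁, u₂] 1) = (0 : k) • u₁ + c • u₂ := by
    rw [zero_smul, zero_add]; exact hc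
  exact shape_eq_of_comb_eq h (e.symm.trans e')

theorem shape_det_conj_unit (g : (M2 k)ˣ) (m : M2 k) :
    ((g : M2 k) * m * ((g⁻¹ : (M2 k)ˣ) : M2 k)).det = m.det := by
  rw [Matrix.det_mul, Matrix.det_mul, mul_right_comm, ← Matrix.det_mul, Units.mul_inv,
    Matrix.det_one, one_mul]

end LinAlg

section Arith

variable {p : ℕ} [Fact p.Prime] {k : Type} [Field k] [Finite k] [CharP k p]

omit [Finite k] in
theorem shape_exists_natCast_of_pow_eq {a : k} (h : a ^ p = a) : ∃ n : ℕ, a = n := by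
  have h1 : a ∈ (⊥ : Subfield k) := (Subfield.mem_bot_iff_pow_eq_self k p).2 h
  rw [← ZMod.fieldRange_castHom_eq_bot p] at h1
  obtain ⟨z, rfl⟩ := h1
  refine ⟨z.val, ?_⟩
  conv_lhs => rw [← ZMod.natCast_zmod_val z]
  rw [map_natCast]

theorem shape_liesOver_Ap : (Ap p).LiesOverPrime p := CFT.LS.liesOverPrime_primeLocalPlace (pPrime p)

omit [Finite k] [CharP k p] in
/-- the eigen-character -/
theorem exists_eigenChar (rbar : GQ →* M2 k) {w : Fin 2 → k} (hw : w ≠ 0)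
    (h : ∀ σ ∈ Dp p, ∃ c : k, (rbar σ).mulVec w = c • w) :
    ∃ η : ↥(Dp p) →* k, ∀ σ : ↥(Dp p), (rbar σ).mulVec w = η σ • w := by
  choose f hf using fun σ : ↥(Dp p) => h σ σ.2
  have hinj : Function.Injective fun c : k => c • w := smul_left_injective k hw
  refine ⟨{ toFun := f, map_one' := ?_, map_mul' := ?_ }, hf⟩
  · apply hinj
    show f 1 • w = (1 : k) • w
    rw [← hf, one_smul, Subgroup.coe_one, map_one, Matrix.one_mulVec]
  · intro σ τ
    apply hinj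
    show f (σ * τ) • w = (f σ * f τ) • w
    rw [← hf, Subgroup.coe_mul, map_mul, ← Matrix.mulVec_mulVec, hf, Matrix.mulVec_smul, hf,
      smul_smul, mul_comm]

omit [Finite k] [CharP k p] in
theorem eigenChar_ne_zero (η : ↥(Dp p) →* k) (τ : ↥(Dp p)) : η τ ≠ 0 := by
  intro h0
  have := map_mul η τ τ⁻¹
  rw [mul_inv_cancel, map_one, h0, zero_mul] at this
  exact one_ne_zero this

/-- (0) -/
theorem eigenChar_pow (rbar : GQ →* M2 k) (hcont : GaloisFactorsThroughFiniteLevel rbar)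
    {w : Fin 2 → k} (hw : w ≠ 0) (η : ↥(Dp p) →* k)
    (hη : ∀ σ : ↥(Dp p), (rbar σ).mulVec w = η σ • w) (σ : ↥(Dp p)) (hσ : (σ : GQ) ∈ Ip p) :
    η σ ^ p = η σ := by
  classical
  have hp : p.Prime := Fact.out
  have hA := shape_liesOver_Ap (p := p)
  have := Fintype.ofFinite k
  obtain ⟨φ, hφ⟩ := exists_isFrobeniusAt hp hA
  have hinj : Function.Injective fun c : k => c • w := smul_left_injective k hw
  let h : ↥(Ip p) →* k := η.comp (Subgroup.inclusion (inert_le_decomp (pPrime p)))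
  have hc : ∃ L : IntermediateField ℚ Qb, FiniteDimensional ℚ L ∧
      ∀ τ : ↥(Ip p), (∀ x ∈ L, (τ : GQ) x = x) → h τ = 1 := by
    obtain ⟨L, hL, hL'⟩ := hcont
    refine ⟨L, hL, fun τ hτ => ?_⟩
    apply hinj
    show η (Subgroup.inclusion (inert_le_decomp (pPrime p)) τ) • w = (1 : k) • w
    rw [← hη, one_smul]
    show (rbar (τ : GQ)).mulVec w = w
    rw [hL' _ hτ, Matrix.one_mulVec]
  have hN : Nat.Coprime (Fintype.card k - 1) p := by
    obtain ⟨n, -, hn⟩ := FiniteField.card k p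
    rw [hn]
    apply Nat.Coprime.symm
    rw [Nat.Prime.coprime_iff_not_dvd hp]
    intro hd
    have h1 : p ∣ p ^ (n : ℕ) := dvd_pow_self p n.ne_zero
    have h2 : 1 ≤ p ^ (n : ℕ) := Nat.one_le_pow _ _ hp.pos
    have h3 : p ∣ 1 := by
      have := (Nat.dvd_sub_iff_right h2 h1).1 hd
      exact this
    exact hp.one_lt.ne' (Nat.dvd_one.1 h3)
  have htors : ∀ τ, h τ ^ (Fintype.card k - 1) = 1 := fun τ =>
    FiniteField.pow_card_sub_one_eq_one _ (eigenChar_ne_zero η _)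
  have hconj : φ * (σ : GQ) * φ⁻¹ ∈ Ip p :=
    conj_mem_inertia hp hA hφ.mem_decompositionSubgroup hσ
  have key := tame_frob hp hA h hc _ hN htors hφ ⟨σ, hσ⟩ hconj
  let Φ : ↥(Dp p) := ⟨φ, hφ.mem_decompositionSubgroup⟩
  have e1 : h ⟨φ * (σ : GQ) * φ⁻¹, hconj⟩ = η (Φ * σ * Φ⁻¹) := rfl
  have e2 : h ⟨σ, hσ⟩ = η σ := rfl
  rw [e1, e2, map_mul, map_mul, mul_right_comm, ← map_mul, mul_inv_cancel, map_one, one_mul] at key
  exact key.symm

omit [Finite k] in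
theorem shape_nsmul_vec_eq_zero (x : Fin 2 → k) : p • x = 0 := by
  rw [← Nat.cast_smul_eq_nsmul k, CharP.cast_eq_zero, zero_smul]

/-- CASE 1 : the eigen-character is cyclotomic on inertia -/
theorem chiK_eq_eigenChar (hp2 : p ≠ 2) (rbar : GQ →* M2 k)
    (hflat : HasFlat (Ap p).valuation (matAct (Ip p) rbar))
    {w : Fin 2 → k} (hw : w ≠ 0) (η : ↥(Dp p) →* k)
    (hη : ∀ σ : ↥(Dp p), (rbar σ).mulVec w = η σ • w)
    (hpow : ∀ σ : ↥(Dp p), (σ : GQ) ∈ Ip p → η σ ^ p = η σ)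
    (hne : ∃ σ : ↥(Dp p), (σ : GQ) ∈ Ip p ∧ η σ ≠ 1) (σ : ↥(Dp p)) (hσ : (σ : GQ) ∈ Ip p) :
    (chiK p k σ : k) = η σ := by
  have hp : p.Prime := Fact.out
  have hA := shape_liesOver_Ap (p := p)
  have : NeZero p := ⟨hp.ne_zero⟩
  have hinj : Function.Injective fun c : k => c • w := smul_left_injective k hw
  let ι : ↥(Ip p) →* ↥(Dp p) := Subgroup.inclusion (inert_le_decomp (pPrime p))
  choose n hn using fun g : ↥(Ip p) => shape_exists_natCast_of_pow_eq (hpow (ι g) g.2)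
  have hn' : ∀ g, matAct (Ip p) rbar g w = n g • w := by
    intro g
    rw [matAct_apply, ← Nat.cast_smul_eq_nsmul k, ← hn]
    exact hη (ι g)
  obtain ⟨ζ, hζ⟩ := HasEnoughRootsOfUnity.exists_primitiveRoot Qb p
  have key := HasFlat.smul_zeta_eq hp hp2 (isSH_inertia hp hA) (arch_valuation hp hA)
    shape_nsmul_vec_eq_zero hflat hw n hn' (by
      obtain ⟨τ, hτ, hτ1⟩ := hne
      refine ⟨⟨τ, hτ⟩, fun h => hτ1 (hinj ?_)⟩
      show η τ • w = (1 : k) • w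
      rw [one_smul, ← hη]
      exact h) (hζ.ne_one hp.one_lt) hζ.pow_eq_one ⟨σ, hσ⟩
  have h1 : (Fermat.Agent.GAL.cycloChar p (σ : GQ) : ZMod p) = n ⟨σ, hσ⟩ :=
    Fermat.Agent.GAL.cycloChar_eq_of_primitiveRoot p (σ : GQ) hζ key
  have h2 : ((chiK p k σ : kˣ) : k) =
      ZMod.castHom (dvd_refl p) k ((Fermat.Agent.GAL.cycloChar p (σ : GQ) : (ZMod p)ˣ) : ZMod p) := rfl
  rw [h2, h1, map_natCast]
  exact (hn ⟨σ, hσ⟩).symm

/-- CASE 1 -/
theorem exists_isUT_of_ne_one (hp2 : p ≠ 2) (rbar : GQ →* M2 k)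
    (hdet : ∀ σ, (rbar σ).det = (chiK p k σ : k))
    (hflat : HasFlat (Ap p).valuation (matAct (Ip p) rbar))
    {w : Fin 2 → k} (hw : w ≠ 0) (η : ↥(Dp p) →* k)
    (hη : ∀ σ : ↥(Dp p), (rbar σ).mulVec w = η σ • w)
    (hpow : ∀ σ : ↥(Dp p), (σ : GQ) ∈ Ip p → η σ ^ p = η σ)
    (hne : ∃ σ : ↥(Dp p), (σ : GQ) ∈ Ip p ∧ η σ ≠ 1) :
    ∃ g₀ : (M2 k)ˣ, IsUT p (S53.conjRep g₀ rbar) := by
  obtain ⟨u, hu⟩ := exists_det_colMat_ne_zero hw
  refine ⟨colUnit w u hu, ⟨fun σ hσ => ?_, fun σ hσ => ?_⟩⟩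
  · rw [S53.conjRep_apply]
    exact (conj_col_zero hu (hη ⟨σ, hσ⟩)).2
  · have hσD : σ ∈ Dp p := inert_le_decomp _ hσ
    rw [S53.conjRep_apply]
    obtain ⟨h00, h10⟩ := conj_col_zero hu (hη ⟨σ, hσD⟩)
    have hd := shape_det_conj_unit (colUnit w u hu) (rbar σ)
    rw [Matrix.det_fin_two, h00, h10, mul_zero, sub_zero, hdet,
      chiK_eq_eigenChar hp2 rbar hflat hw η hη hpow hne ⟨σ, hσD⟩ hσ] at hd
    exact mul_left_cancel₀ (eigenChar_ne_zero η ⟨σ, hσD⟩) (hd.trans (mul_one _).symm)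

omit [Finite k] [CharP k p] in
theorem shape_smul_mem_aug (rbar : GQ →* M2 k) (t : k) {z : Fin 2 → k}
    (hz : z ∈ aug (matAct (Ip p) rbar)) : t • z ∈ aug (matAct (Ip p) rbar) := by
  unfold aug at hz ⊢
  induction hz using AddSubgroup.closure_induction with
  | mem z hz =>
    obtain ⟨g, x, rfl⟩ := hz
    refine AddSubgroup.subset_closure ⟨g, t • x, ?_⟩
    rw [matAct_apply, matAct_apply, Matrix.mulVec_smul, smul_sub]
  | zero => rw [smul_zero]; exact zero_mem _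
  | add a b _ _ ha hb => rw [smul_add]; exact add_mem ha hb
  | neg a _ ha => rw [smul_neg]; exact neg_mem ha

omit [Finite k] [CharP k p] in
theorem shape_mulVec_mem_aug (rbar : GQ →* M2 k) {δ : GQ} (hδ : δ ∈ Dp p) {z : Fin 2 → k}
    (hz : z ∈ aug (matAct (Ip p) rbar)) : (rbar δ).mulVec z ∈ aug (matAct (Ip p) rbar) := by
  have hp : p.Prime := Fact.out
  have hA := shape_liesOver_Ap (p := p)
  unfold aug at hz ⊢
  induction hz using AddSubgroup.closure_induction with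
  | mem z hz =>
    obtain ⟨g, x, rfl⟩ := hz
    refine AddSubgroup.subset_closure
      ⟨⟨δ * (g : GQ) * δ⁻¹, conj_mem_inertia hp hA hδ g.2⟩, (rbar δ).mulVec x, ?_⟩
    rw [matAct_apply, matAct_apply, Matrix.mulVec_sub, Matrix.mulVec_mulVec, Matrix.mulVec_mulVec,
      ← map_mul, ← map_mul, inv_mul_cancel_right]
  | zero => rw [Matrix.mulVec_zero]; exact zero_mem _
  | add a b _ _ ha hb => rw [Matrix.mulVec_add]; exact add_mem ha hb
  | neg a _ ha => rw [Matrix.mulVec_neg]; exact neg_mem ha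

/-- an element of the augmentation subgroup fixed by inertia is zero -/
theorem eq_zero_of_mem_aug_of_fixed (hp2 : p ≠ 2) (rbar : GQ →* M2 k)
    (hflat : HasFlat (Ap p).valuation (matAct (Ip p) rbar)) {z : Fin 2 → k}
    (hz : z ∈ aug (matAct (Ip p) rbar)) (hfix : ∀ g ∈ Ip p, (rbar g).mulVec z = z) : z = 0 := by
  have hp : p.Prime := Fact.out
  have hA := shape_liesOver_Ap (p := p)
  have h := HasFlat.noTriv hp hp2 (isSH_inertia hp hA) (arch_valuation hp hA)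
    shape_nsmul_vec_eq_zero hflat ⊥ (by
      intro g y hy
      rw [AddSubgroup.mem_bot] at hy ⊢
      rw [hy, map_zero]) z hz (by
      intro g
      rw [AddSubgroup.mem_bot, matAct_apply, hfix g g.2, sub_self])
  exact (AddSubgroup.mem_bot).1 h

/-- CASE 2 -/
theorem exists_isUT_of_eq_one (hp2 : p ≠ 2) (rbar : GQ →* M2 k)
    (hdet : ∀ σ, (rbar σ).det = (chiK p k σ : k))
    (hflat : HasFlat (Ap p).valuation (matAct (Ip p) rbar))
    {w : Fin 2 → k} (hw : w ≠ 0) (η : ↥(Dp p) →* k)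
    (hη : ∀ σ : ↥(Dp p), (rbar σ).mulVec w = η σ • w)
    (hone : ∀ σ : ↥(Dp p), (σ : GQ) ∈ Ip p → η σ = 1) :
    ∃ g₀ : (M2 k)ˣ, IsUT p (S53.conjRep g₀ rbar) := by
  have hfixw : ∀ g ∈ Ip p, (rbar g).mulVec w = w := by
    intro g hg
    have := hη ⟨g, inert_le_decomp _ hg⟩
    rw [hone _ hg, one_smul] at this
    exact this
  -- a non zero element of the augmentation subgroup
  obtain ⟨w', hw'aug, hw'⟩ : ∃ w' ∈ aug (matAct (Ip p) rbar), w' ≠ 0 := by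
    obtain ⟨σ, hσ, hσ1⟩ := chiK_inert_ne_one (p := p) (k := k) hp2
    by_contra hcon
    push Not at hcon
    apply hσ1
    have h1 : rbar σ = 1 := by
      apply Matrix.toLin'.injective
      apply LinearMap.ext
      intro x
      rw [Matrix.toLin'_apply, Matrix.toLin'_one, LinearMap.id_apply]
      have := hcon _ (sub_mem_aug (matAct (Ip p) rbar) ⟨σ, hσ⟩ x)
      rw [matAct_apply, sub_eq_zero] at this
      exact this
    have h2 := hdet σ
    rw [h1, Matrix.det_one] at h2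
    exact Units.ext h2.symm
  have hd : (colMat w' w).det ≠ 0 := by
    intro h0
    obtain ⟨t, ht⟩ := exists_smul_of_det_colMat_eq_zero hw h0
    apply hw'
    refine eq_zero_of_mem_aug_of_fixed hp2 rbar hflat hw'aug fun g hg => ?_
    rw [ht, Matrix.mulVec_smul, hfixw g hg]
  refine ⟨colUnit w' w hd, ⟨fun σ hσ => ?_, fun σ hσ => ?_⟩⟩
  · rw [S53.conjRep_apply]
    have e := conj_col w' w hd (rbar σ) 0
    obtain ⟨a, ha⟩ : ∃ a : k, a = (((colUnit w' w hd : (M2 k)ˣ) : M2 k) * rbar σ *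
      (((colUnit w' w hd)⁻¹ : (M2 k)ˣ) : M2 k)) 0 0 := ⟨_, rfl⟩
    obtain ⟨b, hb⟩ : ∃ b : k, b = (((colUnit w' w hd : (M2 k)ˣ) : M2 k) * rbar σ *
      (((colUnit w' w hd)⁻¹ : (M2 k)ˣ) : M2 k)) 1 0 := ⟨_, rfl⟩
    rw [← ha, ← hb] at e
    rw [← hb]
    have e' : b • w = (rbar σ).mulVec w' - a • w' := by
      have : (rbar σ).mulVec w' = a • w' + b • w := e
      rw [this, add_sub_cancel_left]
    have hmem : b • w ∈ aug (matAct (Ip p) rbar) := by
      rw [e']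
      exact sub_mem (shape_mulVec_mem_aug rbar hσ hw'aug) (shape_smul_mem_aug rbar a hw'aug)
    have h0 : b • w = 0 := eq_zero_of_mem_aug_of_fixed hp2 rbar hflat hmem fun g hg => by
      rw [Matrix.mulVec_smul, hfixw g hg]
    exact (smul_eq_zero.1 h0).resolve_right hw
  · rw [S53.conjRep_apply]
    have hσD : σ ∈ Dp p := inert_le_decomp _ hσ
    rw [(conj_col_one hd (hη ⟨σ, hσD⟩)).2]
    exact hone _ hσ

/-- **[ORD-SHAPE]** -/
theorem exists_isUT (hp2 : p ≠ 2) (rbar : GQ →* M2 k)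
    (hcont : GaloisFactorsThroughFiniteLevel rbar)
    (hdet : ∀ σ, (rbar σ).det = (chiK p k σ : k))
    (hred : ∃ w : Fin 2 → k, w ≠ 0 ∧ ∀ σ ∈ Dp p, ∃ c : k, (rbar σ).mulVec w = c • w)
    (hflat : HasFlat (Ap p).valuation (matAct (Ip p) rbar)) :
    ∃ g₀ : (M2 k)ˣ, IsUT p (S53.conjRep g₀ rbar) := by
  obtain ⟨w, hw, hw'⟩ := hred
  obtain ⟨η, hη⟩ := exists_eigenChar rbar hw hw'
  by_cases hne : ∃ σ : ↥(Dp p), (σ : GQ) ∈ Ip p ∧ η σ ≠ 1
  · exact exists_isUT_of_ne_one hp2 rbar hdet hflat hw η hη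
      (eigenChar_pow rbar hcont hw η hη) hne
  · push Not at hne
    exact exists_isUT_of_eq_one hp2 rbar hdet hflat hw η hη hne

end Arith

end Fermat.Agent.S56.Flat
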