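import Fermat.Agent.S56.Flat.Ord.Z
import Fermat.Agent.S56.Flat.Ord.Shape
import Fermat.Agent.S56.Flat.Ord.Lift
import Fermat.Agent.S56.Flat.Ord.PeuOf
import Fermat.Agent.S56.Flat.Ord.Conj

/-!
# S56 / Flat / Ord / Main : [FLAT-TAN] when `rbar|_{D_p}` is reducible.  Assembly.
-/

set_option autoImplicit false
set_option linter.unusedSectionVars false

open ExtCitation

namespace Fermat.Agent.S56.Flat

open Fermat.Agent.S56.Font
open CFT (levS levAll decomp Z1 B1 Qb d01)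

variable {p : ℕ} [Fact p.Prime] {k : Type} [Field k] [Finite k] [CharP k p]

/-- if there is no flat lift take `L = B1loc`. -/
theorem flatTanM_of_not_exists (h2 : (2 : k) ≠ 0) (rbar : GQ →* M2 k)
    (hcont : GaloisFactorsThroughFiniteLevel rbar)
    (hex : ¬ ∃ r₁ : GQ →* M2 (DualNumber k), FlatLift p rbar r₁) : FlatTanM p h2 rbar := by
  have hsm := isSmooth_adRep rbar hcont
  have hfin : Finite ↥(B1loc (adRep rbar) (pPrime p)) := by
    unfold B1loc B1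
    exact Set.finite_range _
  refine ⟨B1loc (adRep rbar) (pPrime p), le_rfl, B1loc_le_Z1loc _ hsm _, hfin, ?_,
    fun r₁ h => absurd ⟨r₁, h⟩ hex⟩
  have h1 : Nat.card ↥(B1loc (adRep rbar) (pPrime p)) ≤ Nat.card ↥(sl2 k) := by
    unfold B1loc B1
    exact Nat.card_le_card_of_surjective
      (LinearMap.rangeRestrict (d01 (locRep (adRep rbar) (pPrime p))))
      (LinearMap.surjective_rangeRestrict _)
  refine h1.trans (LocQ.card_sl2_le.trans ?_)
  exact Nat.pow_le_pow_right Nat.card_pos (by norm_num)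

theorem exists_zeta (p : ℕ) [Fact p.Prime] : ∃ ζ : Qb, ζ ≠ 1 ∧ ζ ^ p = 1 := by
  have hp : p.Prime := Fact.out
  have : NeZero ((p : ℕ) : Qb) := ⟨by exact_mod_cast hp.ne_zero⟩
  obtain ⟨ζ, hζ⟩ := HasEnoughRootsOfUnity.exists_primitiveRoot Qb p
  exact ⟨ζ, hζ.ne_one hp.one_lt, hζ.pow_eq_one⟩

theorem eq_one_of_matAct_eq_one {R : Type} [CommRing R] (G : Subgroup GQ) (r : GQ →* M2 R) (g : ↥G)
    (h : matAct G r g = 1) : r g = 1 := by
  have h1 : ∀ x : Fin 2 → R, (r g).mulVec x = x := fun x => by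
    have := DFunLike.congr_fun h x
    simpa using this
  ext i j
  have := congrFun (h1 (Pi.single j 1)) i
  rw [Matrix.mulVec_single_one] at this
  simpa [Matrix.one_apply, Pi.single_apply, eq_comm] using this

/-- on inertia an ordinary `rbar` is `(χ b; 0 1)`. -/
theorem IsUT.apply_zero_zero {rbar : GQ →* M2 k} (hUT : IsUT p rbar)
    (hdet : ∀ σ, (rbar σ).det = (chiK p k σ : k)) {σ : GQ} (hσ : σ ∈ Ip p) :
    rbar σ 0 0 = (chiK p k σ : k) := by
  have h1 := hdet σ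
  rw [Matrix.det_fin_two, hUT.one σ hσ, hUT.tri σ (inert_le_decomp _ hσ)] at h1
  simpa using h1

/-- the extension class of an ordinary flat `rbar` is peu ramifié. -/
theorem peu_rbar {ζ : Qb} (hζ : ζ ^ p = 1) {rbar : GQ →* M2 k} (hUT : IsUT p rbar)
    (hdet : ∀ σ, (rbar σ).det = (chiK p k σ : k))
    (hflat : HasFlat (Ap p).valuation (matAct (Ip p) rbar)) :
    Peu ζ (fun σ : ↥(Dp p) => rbar σ 0 1) := by
  refine peu_of_hasFlat hζ (X := Fin 2 → k) (fun x => ?_) (matAct (Ip p) rbar) hflat _ ?_ ?_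
  · funext i
    simp
  · intro σ τ hσ hτ
    rw [Subgroup.coe_mul, map_mul, Matrix.mul_apply, Fin.sum_univ_two, hUT.one _ hτ,
      hUT.apply_zero_zero hdet hσ]
    ring
  · intro σ hσ h
    have := eq_one_of_matAct_eq_one (Ip p) rbar ⟨σ, hσ⟩ h
    show rbar (σ : GQ) 0 1 = 0
    rw [show rbar (σ : GQ) = 1 from this]
    simp

/-- **[FLAT-TAN]** for `rbar` in ordinary shape. -/
theorem flatTanM_of_isUT (hp2 : p ≠ 2) (h2 : (2 : k) ≠ 0) (rbar : GQ →* M2 k)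
    (hcont : GaloisFactorsThroughFiniteLevel rbar)
    (hdet : ∀ σ, (rbar σ).det = (chiK p k σ : k)) (hUT : IsUT p rbar) : FlatTanM p h2 rbar := by
  by_cases hex : ∃ r₁ : GQ →* M2 (DualNumber k), FlatLift p rbar r₁
  swap
  · exact flatTanM_of_not_exists h2 rbar hcont hex
  obtain ⟨r₀, hr₀⟩ := hex
  obtain ⟨ζ, hζ1, hζ⟩ := exists_zeta p
  have hsm := isSmooth_adRep rbar hcont
  have hflat : HasFlat (Ap p).valuation (matAct (Ip p) rbar) :=
    hasFlat_matAct_residual rbar r₀ hr₀.lift hr₀.flat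
  have hb := peu_rbar hζ hUT hdet hflat
  obtain ⟨hfin, hcard⟩ := card_ZordF_sup_le hp2 hζ1 hζ rbar hcont hdet hUT hb
  refine ⟨ZordF rbar ζ hζ ⊔ B1loc (adRep rbar) (pPrime p), le_sup_right,
    sup_le (fun c hc => hc.1) (B1loc_le_Z1loc _ hsm _), hfin, hcard, fun r₁ h => ?_⟩
  obtain ⟨m, hm⟩ := exists_upper_of_flatLift hp2 h2 rbar hdet hUT h
  -- continuity of the cocycle
  have hZ : resLoc k (pPrime p) (coc h2 r₁) ∈ Z1loc (adRep rbar) (pPrime p) := by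
    obtain ⟨L, hLfin, hL⟩ := h.cont
    refine resLoc_mem_Z1loc' _ (coc_mem_Z1 h2 levAll h.lift ?_) _
    refine ⟨(IntermediateField.normalClosure ℚ L Qb).fixingSubgroup,
      ⟨_, normalClosure.is_finiteDimensional ℚ L Qb, normalClosure.normal ℚ L Qb, rfl⟩,
      fun s hs => hL s (fun x hx => ?_)⟩
    exact hs ⟨x, IntermediateField.le_normalClosure L hx⟩
  have hB : d01 (locRep (adRep rbar) (pPrime p)) m ∈ B1loc (adRep rbar) (pPrime p) := ⟨m, rfl⟩
  set c' : ↥(Dp p) → sl2 k :=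
    resLoc k (pPrime p) (coc h2 r₁) - d01 (locRep (adRep rbar) (pPrime p)) m with hc'
  have hc'v : ∀ σ : ↥(Dp p), c' σ = coc h2 r₁ σ - (adRep rbar σ m - m) := fun σ => rfl
  have hc'Z : c' ∈ Z1loc (adRep rbar) (pPrime p) := sub_mem hZ (B1loc_le_Z1loc _ hsm _ hB)
  have h10 : ∀ σ : ↥(Dp p), ((c' σ : sl2 k) : M2 k) 1 0 = 0 := fun σ => by
    rw [hc'v]; exact (hm σ σ.2).1
  have h11 : ∀ σ : ↥(Dp p), (σ : GQ) ∈ Ip p → ((c' σ : sl2 k) : M2 k) 1 1 = 0 := fun σ hσ => by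
    rw [hc'v]; exact (hm σ σ.2).2 hσ
  have h00 : ∀ σ : ↥(Dp p), (σ : GQ) ∈ Ip p → ((c' σ : sl2 k) : M2 k) 0 0 = 0 := fun σ hσ => by
    have ht := (mem_sl2 _).1 (c' σ).2
    rw [Matrix.trace_fin_two, h11 σ hσ, add_zero] at ht
    exact ht
  have hcoc : ∀ σ τ : ↥(Dp p), c' (σ * τ) = c' σ + adRep rbar σ (c' τ) := by
    intro σ τ
    have h1 := congrFun (LinearMap.mem_ker.1 hc'Z.1) (σ, τ)
    have h2' : adRep rbar (σ : GQ) (c' τ) - c' (σ * τ) + c' σ = 0 := h1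
    have h3 : c' (σ * τ) = adRep rbar (σ : GQ) (c' τ) + c' σ := by
      have h4 : adRep rbar (σ : GQ) (c' τ) + c' σ - c' (σ * τ) = 0 := by
        rw [← h2']; abel
      exact (sub_eq_zero.1 h4).symm
    rw [h3, add_comm]
  have hpeu : Peu ζ (fun σ => ((c' σ : sl2 k) : M2 k) 0 1) := by
    refine peu_of_hasFlat hζ (X := Fin 2 → DualNumber k) (fun x => ?_) (matAct (Ip p) r₁) h.flat _
      ?_ ?_
    · funext i
      have hp0 : ((p : ℕ) : DualNumber k) = 0 := by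
        have : ((p : ℕ) : DualNumber k) = TrivSqZeroExt.inl ((p : ℕ) : k) :=
          (map_natCast (TrivSqZeroExt.inlHom k k) p).symm
        rw [this, CharP.cast_eq_zero k p, TrivSqZeroExt.inl_zero]
      rw [Pi.smul_apply, nsmul_eq_mul, hp0, zero_mul]
      rfl
    · intro σ τ hσ hτ
      have hσi : (σ : GQ)⁻¹ ∈ Ip p := (Ip p).inv_mem hσ
      rw [hcoc σ τ, Submodule.coe_add, Matrix.add_apply, adRep_apply_coe]
      congr 1
      rw [Matrix.mul_apply, Fin.sum_univ_two, Matrix.mul_apply, Fin.sum_univ_two,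
        Matrix.mul_apply, Fin.sum_univ_two, h00 τ hτ, h10 τ, h11 τ hτ, hUT.one _ hσi,
        hUT.apply_zero_zero hdet hσ]
      ring
    · intro σ hσ hα
      have hr1 : r₁ (σ : GQ) = 1 := eq_one_of_matAct_eq_one (Ip p) r₁ ⟨σ, hσ⟩ hα
      have hrb : rbar (σ : GQ) = 1 := by
        rw [← h.lift σ, hr1, map_fst_one]
      have hrbi : rbar (σ : GQ)⁻¹ = 1 := by
        have := rbar_inv_mul rbar (σ : GQ)
        rwa [hrb, mul_one] at this
      have e1 : coc h2 r₁ (σ : GQ) = 0 := by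
        unfold coc cocM
        rw [hr1, map_snd_one, zero_mul, map_zero]
      have e2 : adRep rbar (σ : GQ) m = m := by
        apply Subtype.ext
        rw [adRep_apply_coe, hrb, hrbi, one_mul, mul_one]
      show ((c' σ : sl2 k) : M2 k) 0 1 = 0
      rw [hc'v, e1, e2]
      simp
  have hmem : c' ∈ ZordF rbar ζ hζ := ⟨hc'Z, h10, h11, hpeu⟩
  have : resLoc k (pPrime p) (coc h2 r₁) = c' + d01 (locRep (adRep rbar) (pPrime p)) m := by
    rw [hc']; abel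
  rw [this]
  exact Submodule.add_mem_sup hmem hB

/-- **[FLAT-TAN]**, matrix form, when `rbar|_{D_p}` is reducible. -/
theorem flatTanM_of_reducible (hp2 : p ≠ 2) (h2 : (2 : k) ≠ 0) (rbar : GQ →* M2 k)
    (hcont : GaloisFactorsThroughFiniteLevel rbar)
    (hdet : ∀ σ, (rbar σ).det = (chiK p k σ : k))
    (hred : ∃ w : Fin 2 → k, w ≠ 0 ∧ ∀ σ ∈ Dp p, ∃ c : k, (rbar σ).mulVec w = c • w) :
    FlatTanM p h2 rbar := by
  by_cases hex : ∃ r₁ : GQ →* M2 (DualNumber k), FlatLift p rbar r₁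
  swap
  · exact flatTanM_of_not_exists h2 rbar hcont hex
  obtain ⟨r₀, hr₀⟩ := hex
  have hflat : HasFlat (Ap p).valuation (matAct (Ip p) rbar) :=
    hasFlat_matAct_residual rbar r₀ hr₀.lift hr₀.flat
  obtain ⟨g₀, hg₀⟩ := exists_isUT hp2 rbar hcont hdet hred hflat
  refine flatTanM_of_conj h2 rbar g₀ (flatTanM_of_isUT hp2 h2 _ ?_ ?_ hg₀)
  · obtain ⟨L, hL, h⟩ := hcont
    refine ⟨L, hL, fun σ hσ => ?_⟩
    show (g₀ : M2 k) * rbar σ * ((g₀⁻¹ : (M2 k)ˣ) : M2 k) = 1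
    rw [h σ hσ, mul_one, Units.mul_inv]
  · intro σ
    show ((g₀ : M2 k) * rbar σ * ((g₀⁻¹ : (M2 k)ˣ) : M2 k)).det = _
    rw [Matrix.det_mul, Matrix.det_mul, mul_right_comm, ← Matrix.det_mul, Units.mul_inv,
      Matrix.det_one, one_mul, hdet]

/-- **[FLAT-TAN] when `rbar|_{D_p}` is reducible**: same conclusion as `Loc/Flat.lean`. -/
theorem exists_flat_condition_red (hp2 : p ≠ 2) (h2 : (2 : k) ≠ 0) (rbar : GQ →* M2 k)
    (hcont : GaloisFactorsThroughFiniteLevel rbar)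
    (hdet : ∀ σ, (rbar σ).det = (chiK p k σ : k))
    (hred : ∃ w : Fin 2 → k, w ≠ 0 ∧
      ∀ σ ∈ decomp (pPrime p), ∃ c : k, (rbar σ).mulVec w = c • w) :
    ∃ L : Submodule k (↥(decomp (pPrime p)) → sl2 k),
      B1loc (adRep rbar) (pPrime p) ≤ L ∧ L ≤ Z1loc (adRep rbar) (pPrime p) ∧
      Finite ↥L ∧ Nat.card ↥L ≤ Nat.card k ^ 4 ∧
      ∀ (ρ₁ : GaloisRepAdic (DualNumber k)) (r₁ : GQ →* M2 (DualNumber k)),
        S53.HasMatrix ρ₁ r₁ → IsLift rbar r₁ →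
        (∀ σ, (r₁ σ).det = TrivSqZeroExt.inl (rbar σ).det) → ρ₁.IsFlatAt p →
        resLoc k (pPrime p) (coc h2 r₁) ∈ L := by
  obtain ⟨L, h1, h2', h3, h4, h5⟩ := flatTanM_of_reducible hp2 h2 rbar hcont hdet hred
  exact ⟨L, h1, h2', h3, h4, fun ρ₁ r₁ hm hl hd hf =>
    h5 r₁ (flatLift_of_isFlatAt rbar ρ₁ r₁ hm hl hd hf)⟩

end Fermat.Agent.S56.Flat
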