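import Fermat.Agent.S56.Flat.Ord.Defs
import Fermat.Agent.S56.Font.Root.Rig
import Fermat.Agent.S14.PartA.Cyclo
import Fermat.Agent.S56.Tame.Main

/-!
# S56 / Flat / Ord / Kum  [ORD-K1..K4] : calculus of normalised Kummer generators over `K₀ = ℚ̄^I`.

`v = (Ap p).valuation`, `hSH := Font.isSH_inertia .. : IsSH ↥(Ip p) v p` (`Font/LT/Inst.lean`; `g • x = (g : GQ) x`), `tk y := (y^p - 1)/p`.
`v (y^p - 1) ≤ v p < 1` ⟹ `v (y^p) = 1`, `v y = 1`.
[K1] `IsKum.tk_fix`, `tk_int` : `σ (y^p) = (ζ^n y)^p = y^p`.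
     `IsKum.mul` : `(y y')^p - 1 = (y^p - 1) y'^p + (y'^p - 1)`; `ζ^a ζ^b = ζ^((a+b) mod p)`;  `tk (y y') = tk y + tk y' + p tk y tk y'`.
     `IsKum.one`, `IsKum.twist` : `y ζ^j` has the same `p`-th power, `σ (ζ^j) = ζ^(j χ σ)` (`modularCyclotomicCharacter.spec` / `val_cycloChar`).
[K2] `IsKum.val_tk_sub_lt` (uniqueness): `r := y / y'` is fixed by `I`, `r^p = (1 + p t)/(1 + p t')`, `v (r^p - 1) ≤ v p < 1`.  `(r - 1)^p ≡ r^p - 1 mod p` so `v (r - 1) < 1`, `r - 1` fixed so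
     `v (r - 1) ≤ v p` (`Font.val_le_of_lt_one`), so `v (r^p - 1) ≤ (v p)^2` (binomial: `r^p - 1 = ∑_{j ≥ 1} C(p,j) (r-1)^j`, `p ≥ 3`).  `p (t - t') = (r^p - 1)(1 + p t')`.
[K3] `IsKum.exists_of_val_tk_lt` : `t = tk y` fixed, `v t < 1` ⟹ `v t ≤ v p`, `y^p = 1 + p t`, `v (y^p - 1) ≤ v p * v p`.  `Font.exists_fixBy_root` (`Font/Root/Rig.lean`, with `τ = v p`, `N = ⊤`):
     `r` fixed with `r^p = y^p`.  `(y/r)^p = 1` so `y = ζ^j r` (`ζ` primitive), `σ y / y = ζ^(j (χ σ - 1))`; `ζ^a = ζ^b ↔ a ≡ b mod p`.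
[K4] `IsKum.frob` : `σ (Φ y) = Φ ((Φ⁻¹ σ Φ) y)`, `Φ⁻¹ σ Φ ∈ I` (`conj_mem_inertia`), `Φ ζ = ζ^(χ Φ)`; `tk (Φ y) = Φ (tk y)`; `v (Φ t - t^p) < 1` for `v t ≤ 1` (`tameP_frob`, `Tame/Basic.lean`);
     `v (Φ x) = v x` for `Φ ∈ D`.
-/

set_option autoImplicit false

open ExtCitation

namespace Fermat.Agent.S56.Flat

open Fermat.Agent.S56.Font
open CFT (levS levAll decomp Z1 B1 Qb)

variable {p : ℕ} [Fact p.Prime] {ζ : Qb}

/-- the invariant `(y^p - 1)/p` -/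
noncomputable def tk (p : ℕ) (y : Qb) : Qb := (y ^ p - 1) / (p : Qb)

namespace KumAux

theorem liesOver : (Ap p).LiesOverPrime p := liesOverPrime_primeLocalPlace (pPrime p)

theorem val_p_lt_one : (Ap p).valuation (p : Qb) < 1 := (Ap p).mem_nonunits_iff.mp liesOver

theorem p_ne_zero : (p : Qb) ≠ 0 := by exact_mod_cast (Fact.out : p.Prime).ne_zero

theorem val_p_pos : 0 < (Ap p).valuation (p : Qb) :=
  zero_lt_iff.2 ((Valuation.ne_zero_iff _).2 p_ne_zero)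

theorem isSH : IsSH ↥(Ip p) (Ap p).valuation (p : Qb) := isSH_inertia Fact.out liesOver

theorem pow_congr (hζ : ζ ^ p = 1) {a b : ℕ} (h : (a : ZMod p) = b) : ζ ^ a = ζ ^ b :=
  S14.PartA.pow_eq_pow_of_natCast_eq hζ h

theorem apply_zeta (hζ : ζ ^ p = 1) (σ : GQ) :
    σ ζ = ζ ^ ((cycloChar p σ : (ZMod p)ˣ) : ZMod p).val := S14.PartA.cycloChar_spec hζ σ

theorem natCast_val (a : ZMod p) : ((a.val : ℕ) : ZMod p) = a := by
  have : NeZero p := ⟨(Fact.out : p.Prime).ne_zero⟩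
  exact ZMod.natCast_zmod_val a

/-- `v (x - 1) < 1 ⟹ v x = 1`. -/
theorem val_eq_one_of_sub {x : Qb} (h : (Ap p).valuation (x - 1) < 1) :
    (Ap p).valuation x = 1 := by
  have h1 : x = 1 + (x - 1) := by ring
  rw [h1]
  have := Valuation.map_add_eq_of_lt_left (Ap p).valuation
    (x := (1 : Qb)) (y := x - 1) (by rwa [map_one])
  rw [this, map_one]

theorem exists_expand {s : Qb} (hs : (Ap p).valuation s ≤ 1) :
    ∃ c : Qb, (Ap p).valuation c ≤ 1 ∧ (s + 1) ^ p = s ^ p + 1 + p * s * c := by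
  have hsA : s ∈ Ap p := ((Ap p).valuation_le_one_iff s).1 hs
  obtain ⟨c, hc⟩ := exists_add_pow_prime_eq (Fact.out : p.Prime) (⟨s, hsA⟩ : ↥(Ap p)) 1
  refine ⟨c, ((Ap p).valuation_le_one_iff _).2 c.2, ?_⟩
  have := congrArg (Subtype.val) hc
  simpa using this

end KumAux

open KumAux

theorem IsKum.val_pow_eq_one {f : ↥(Dp p) → ZMod p} {y : Qb} (h : IsKum ζ f y) :
    (Ap p).valuation (y ^ p) = 1 :=
  val_eq_one_of_sub (lt_of_le_of_lt h.2.2 val_p_lt_one)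

theorem IsKum.pow_eq {y : Qb} : y ^ p = 1 + p * tk p y := by
  unfold tk
  rw [mul_div_cancel₀ _ p_ne_zero]
  ring

section K1

theorem IsKum.tk_fix {f : ↥(Dp p) → ZMod p} {y : Qb} (hζ : ζ ^ p = 1) (h : IsKum ζ f y) :
    ∀ σ ∈ Ip p, σ (tk p y) = tk p y := by
  intro σ hσ
  have h1 := h.2.1 ⟨σ, inert_le_decomp _ hσ⟩ hσ
  have h2 : σ y = ζ ^ (f ⟨σ, inert_le_decomp _ hσ⟩).val * y := h1
  unfold tk
  rw [map_div₀, map_sub, map_pow, map_one, map_natCast, h2, mul_pow, ← pow_mul, mul_comm _ p,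
    pow_mul, hζ, one_pow, one_mul]

theorem IsKum.tk_int {f : ↥(Dp p) → ZMod p} {y : Qb} (h : IsKum ζ f y) :
    (Ap p).valuation (tk p y) ≤ 1 := by
  unfold tk
  rw [map_div₀]
  exact (div_le_one₀ val_p_pos).2 h.2.2

theorem IsKum.one (ζ : Qb) : IsKum (p := p) ζ (fun _ => 0) 1 := by
  refine ⟨one_ne_zero, fun σ _ => ?_, ?_⟩
  · rw [map_one, ZMod.val_zero, pow_zero, one_mul]
  · rw [one_pow, sub_self, map_zero]
    exact zero_le

theorem IsKum.mul {f f' : ↥(Dp p) → ZMod p} {y y' : Qb} (hζ : ζ ^ p = 1) (h : IsKum ζ f y)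
    (h' : IsKum ζ f' y') :
    IsKum ζ (fun σ => f σ + f' σ) (y * y') ∧
      (Ap p).valuation (tk p (y * y') - tk p y - tk p y') < 1 := by
  refine ⟨⟨mul_ne_zero h.1 h'.1, fun σ hσ => ?_, ?_⟩, ?_⟩
  · rw [map_mul, h.2.1 σ hσ, h'.2.1 σ hσ]
    have e : ζ ^ (f σ + f' σ).val = ζ ^ ((f σ).val + (f' σ).val) :=
      pow_congr hζ (by rw [natCast_val, Nat.cast_add, natCast_val, natCast_val])
    rw [e, pow_add]
    ring
  · have e : (y * y') ^ p - 1 = (y ^ p - 1) * y' ^ p + (y' ^ p - 1) := by ring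
    rw [e]
    refine (Valuation.map_add _ _ _).trans (max_le ?_ h'.2.2)
    rw [map_mul, h'.val_pow_eq_one, mul_one]
    exact h.2.2
  · have e : tk p (y * y') - tk p y - tk p y' = p * (tk p y * tk p y') := by
      unfold tk
      field_simp [p_ne_zero (p := p)]
      ring
    rw [e, map_mul, map_mul]
    exact lt_of_le_of_lt (mul_le_of_le_one_right' (mul_le_one' h.tk_int h'.tk_int)) val_p_lt_one

theorem IsKum.twist {f : ↥(Dp p) → ZMod p} {y : Qb} (hζ : ζ ^ p = 1) (h : IsKum ζ f y)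
    (j : ZMod p) :
    IsKum ζ (fun σ => f σ + j * ((cycloChar p σ : ZMod p) - 1)) (y * ζ ^ j.val) ∧
      tk p (y * ζ ^ j.val) = tk p y := by
  have hζ0 : ζ ≠ 0 := by
    rintro rfl
    rw [zero_pow (Fact.out : p.Prime).ne_zero] at hζ
    exact zero_ne_one hζ
  have hpow : (y * ζ ^ j.val) ^ p = y ^ p := by
    rw [mul_pow, ← pow_mul, mul_comm _ p, pow_mul, hζ, one_pow, mul_one]
  refine ⟨⟨mul_ne_zero h.1 (pow_ne_zero _ hζ0), fun σ hσ => ?_, ?_⟩, ?_⟩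
  · rw [map_mul, h.2.1 σ hσ, map_pow, apply_zeta hζ, ← pow_mul]
    have e : ζ ^ (f σ + j * ((cycloChar p (σ : GQ) : ZMod p) - 1)).val * ζ ^ j.val =
        ζ ^ (f σ).val * ζ ^ (((cycloChar p (σ : GQ) : (ZMod p)ˣ) : ZMod p).val * j.val) := by
      rw [← pow_add, ← pow_add]
      apply pow_congr hζ
      rw [Nat.cast_add, Nat.cast_add, Nat.cast_mul, natCast_val, natCast_val, natCast_val,
        natCast_val]
      ring
    calc ζ ^ (f σ).val * y * ζ ^ (((cycloChar p (σ : GQ) : (ZMod p)ˣ) : ZMod p).val * j.val)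
        = (ζ ^ (f σ).val * ζ ^ (((cycloChar p (σ : GQ) : (ZMod p)ˣ) : ZMod p).val * j.val)) * y := by
          ring
      _ = _ := by rw [← e]; ring
  · rw [hpow]
    exact h.2.2
  · unfold tk
    rw [hpow]

end K1

/-- [K2] -/
theorem IsKum.val_tk_sub_lt (hp2 : p ≠ 2) {f : ↥(Dp p) → ZMod p} {y y' : Qb} (h : IsKum ζ f y)
    (h' : IsKum ζ f y') : (Ap p).valuation (tk p y - tk p y') < 1 := by
  have hp : p.Prime := Fact.out
  set v := (Ap p).valuation with hv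
  have hy'p : y' ^ p ≠ 0 := pow_ne_zero _ h'.1
  -- `r = y / y'`, `s = r - 1`
  have hrfix : ∀ σ ∈ Ip p, σ (y / y' - 1) = y / y' - 1 := by
    intro σ hσ
    have h1 : σ y = ζ ^ (f ⟨σ, inert_le_decomp _ hσ⟩).val * y := h.2.1 ⟨σ, inert_le_decomp _ hσ⟩ hσ
    have h2 : σ y' = ζ ^ (f ⟨σ, inert_le_decomp _ hσ⟩).val * y' :=
      h'.2.1 ⟨σ, inert_le_decomp _ hσ⟩ hσ
    have hz : ζ ^ (f ⟨σ, inert_le_decomp _ hσ⟩).val ≠ 0 := by
      intro h0
      rw [h0, zero_mul] at h1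
      exact h.1 ((map_eq_zero σ).1 h1)
    rw [map_sub, map_div₀, map_one, h1, h2, mul_div_mul_left _ _ hz]
  have hab : v (y ^ p - y' ^ p) ≤ v (p : Qb) := by
    have e : y ^ p - y' ^ p = (y ^ p - 1) - (y' ^ p - 1) := by ring
    rw [e]
    exact (Valuation.map_sub _ _ _).trans (max_le h.2.2 h'.2.2)
  have hrp : (y / y') ^ p - 1 = (y ^ p - y' ^ p) / y' ^ p := by
    rw [div_pow, sub_div, div_self hy'p]
  have hvrp : v ((y / y') ^ p - 1) = v (y ^ p - y' ^ p) := by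
    rw [hrp, map_div₀, h'.val_pow_eq_one, div_one]
  have hvr : v (y / y') = 1 := by
    have h1 : v (y / y') ^ p = 1 := by
      rw [← map_pow, div_pow, map_div₀, h.val_pow_eq_one, h'.val_pow_eq_one, div_one]
    exact (pow_eq_one_iff.1 h1).resolve_right hp.ne_zero
  have hs1 : v (y / y' - 1) ≤ 1 :=
    (Valuation.map_sub _ _ _).trans (max_le hvr.le (by rw [map_one]))
  obtain ⟨c, hc, hexp⟩ := exists_expand hs1
  rw [sub_add_cancel] at hexp
  -- `v s < 1`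
  have hs2 : v (y / y' - 1) < 1 := by
    have e : (y / y' - 1) ^ p = ((y / y') ^ p - 1) - p * (y / y' - 1) * c := by
      rw [hexp]; ring
    have h1 : v ((y / y' - 1) ^ p) < 1 := by
      rw [e]
      refine lt_of_le_of_lt (Valuation.map_sub _ _ _) (max_lt ?_ ?_)
      · rw [hvrp]
        exact lt_of_le_of_lt hab val_p_lt_one
      · rw [map_mul, map_mul]
        exact lt_of_le_of_lt (mul_le_of_le_one_right' hc)
          (lt_of_le_of_lt (mul_le_of_le_one_right' hs1) val_p_lt_one)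
    rw [map_pow] at h1
    by_contra hcon
    exact absurd h1 (not_lt.2 (one_le_pow₀ (not_lt.1 hcon)))
  have hs3 : v (y / y' - 1) ≤ v (p : Qb) :=
    val_le_of_lt_one isSH (fun g => hrfix g.1 g.2) hs2
  -- `v (r^p - 1) ≤ (v p)^2`
  have hsq : v ((y / y') ^ p - 1) ≤ v (p : Qb) * v (p : Qb) := by
    have e : (y / y') ^ p - 1 = (y / y' - 1) ^ p + p * (y / y' - 1) * c := by
      rw [hexp]; ring
    rw [e]
    refine (Valuation.map_add _ _ _).trans (max_le ?_ ?_)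
    · rw [map_pow]
      exact (pow_le_pow_right_of_le_one' hs1 hp.two_le).trans
        (by rw [pow_two]; exact mul_le_mul' hs3 hs3)
    · rw [map_mul, map_mul]
      exact (mul_le_of_le_one_right' hc).trans (mul_le_mul_right hs3 _)
  have e : tk p y - tk p y' = (y ^ p - y' ^ p) / p := by
    unfold tk
    rw [← sub_div]
    congr 1
    ring
  rw [e, map_div₀, ← hvrp]
  calc v ((y / y') ^ p - 1) / v (p : Qb) ≤ v (p : Qb) * v (p : Qb) / v (p : Qb) :=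
        div_le_div_of_nonneg_right hsq zero_le
    _ = v (p : Qb) := by rw [mul_div_assoc, div_self val_p_pos.ne', mul_one]
    _ < 1 := val_p_lt_one

/-- [K3] -/
theorem IsKum.exists_of_val_tk_lt (hp2 : p ≠ 2) (hζ1 : ζ ≠ 1) (hζ : ζ ^ p = 1)
    {f : ↥(Dp p) → ZMod p} {y : Qb} (h : IsKum ζ f y) (ht : (Ap p).valuation (tk p y) < 1) :
    ∃ j : ZMod p, ∀ σ : ↥(Dp p), (σ : GQ) ∈ Ip p → f σ = j * ((cycloChar p σ : ZMod p) - 1) := by
  have hp : p.Prime := Fact.out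
  have : NeZero p := ⟨hp.ne_zero⟩
  set v := (Ap p).valuation with hv
  have hprim : IsPrimitiveRoot ζ p := by
    have := IsPrimitiveRoot.orderOf ζ
    rwa [orderOf_eq_prime hζ hζ1] at this
  have ht2 : v (tk p y) ≤ v (p : Qb) :=
    val_le_of_lt_one isSH (fun g => h.tk_fix hζ g.1 g.2) ht
  have hufix : FixBy (⊤ : Subgroup ↥(Ip p)) (y ^ p) := by
    intro g _
    have h1 : (g : GQ) y = ζ ^ (f ⟨g.1, inert_le_decomp _ g.2⟩).val * y :=
      h.2.1 ⟨g.1, inert_le_decomp _ g.2⟩ g.2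
    show (g : GQ) (y ^ p) = y ^ p
    rw [map_pow, h1, mul_pow, ← pow_mul, mul_comm _ p, pow_mul, hζ, one_pow, one_mul]
  have hτ : v (p : Qb) ^ (p - 1) < v (p : Qb) := by
    obtain ⟨m, hm⟩ : ∃ m, p - 1 = m + 1 + 1 := ⟨p - 3, by have := hp.two_le; omega⟩
    rw [hm, pow_succ]
    calc v (p : Qb) ^ (m + 1) * v (p : Qb) < 1 * v (p : Qb) :=
          mul_lt_mul_of_pos_right (pow_lt_one₀ zero_le val_p_lt_one (Nat.succ_ne_zero m)) val_p_pos
      _ = v (p : Qb) := one_mul _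
  obtain ⟨ρ, hρfix, hρ⟩ := exists_fixBy_root (v := v) hp (N := (⊤ : Subgroup ↥(Ip p)))
    isSH.inv hufix hτ (by
      rw [IsKum.pow_eq (p := p) (y := y), add_sub_cancel_left, map_mul]
      exact mul_le_mul_right ht2 _)
  have hρ0 : ρ ≠ 0 := by
    rintro rfl
    rw [zero_pow hp.ne_zero] at hρ
    exact pow_ne_zero p h.1 hρ.symm
  obtain ⟨j, -, hj⟩ := hprim.eq_pow_of_pow_eq_one (ξ := y / ρ) (by
    rw [div_pow, hρ, div_self (pow_ne_zero p h.1)])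
  have hy : y = ζ ^ j * ρ := by rw [hj, div_mul_cancel₀ _ hρ0]
  refine ⟨(j : ZMod p), fun σ hσ => ?_⟩
  have h1 := h.2.1 σ hσ
  have h2 : (σ : GQ) ρ = ρ := hρfix ⟨σ.1, hσ⟩ (Subgroup.mem_top _)
  rw [hy, map_mul, map_pow, apply_zeta hζ, h2, ← pow_mul, ← mul_assoc, ← pow_add] at h1
  have h3 := S14.PartA.natCast_eq_of_pow_eq_pow hprim (mul_right_cancel₀ hρ0 h1)
  rw [Nat.cast_mul, Nat.cast_add, natCast_val, natCast_val] at h3
  linear_combination -h3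

/-- [K4] -/
theorem IsKum.frob (hζ : ζ ^ p = 1) {f : ↥(Dp p) → ZMod p} {y : Qb} (h : IsKum ζ f y)
    {Φ : ↥(Dp p)} (hΦ : (Ap p).IsFrobeniusAt (Φ : GQ) p) :
    IsKum ζ (fun σ => (cycloChar p Φ : ZMod p) * f (Φ⁻¹ * σ * Φ)) ((Φ : GQ) y) ∧
      (Ap p).valuation (tk p ((Φ : GQ) y) - tk p y ^ p) < 1 := by
  have hp : p.Prime := Fact.out
  have htk : tk p ((Φ : GQ) y) = (Φ : GQ) (tk p y) := by
    unfold tk
    rw [map_div₀, map_sub, map_pow, map_one, map_natCast]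
  refine ⟨⟨(map_ne_zero _).2 h.1, fun σ hσ => ?_, ?_⟩, ?_⟩
  · have hσ' : ((Φ⁻¹ * σ * Φ : ↥(Dp p)) : GQ) ∈ Ip p := by
      have := conj_mem_inertia hp liesOver (g := (Φ : GQ)⁻¹) ((Dp p).inv_mem Φ.2) hσ
      rwa [inv_inv] at this
    have h1 := h.2.1 (Φ⁻¹ * σ * Φ) hσ'
    have h2 : (σ : GQ) ((Φ : GQ) y) = (Φ : GQ) (((Φ⁻¹ * σ * Φ : ↥(Dp p)) : GQ) y) := by
      show _ = (Φ : GQ) (((Φ : GQ)⁻¹ * (σ : GQ) * (Φ : GQ)) y)
      rw [← AlgEquiv.mul_apply, ← AlgEquiv.mul_apply]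
      congr 1
      group
    rw [h2, h1, map_mul, map_pow, apply_zeta hζ, ← pow_mul]
    congr 1
    apply pow_congr hζ
    rw [Nat.cast_mul, natCast_val, natCast_val, natCast_val]
  · rw [← map_pow, ← map_one (Φ : GQ), ← map_sub,
      Bridge.valuation_apply_of_mem_decomposition Φ.2]
    exact h.2.2
  · rw [htk]
    exact tameP_frob hΦ h.tk_int

end Fermat.Agent.S56.Flat
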