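import Mathlib

/-!
# S56 / Flat / Ord / Semi  [ORD-SEMI] : a Lang-type count (Mathlib only).

`V` a finite abelian group killed by `p`, `T : V → V` surjective, `κ` a field of characteristic `p`.
`S := {β : V →+ κ | β (T v) = (β v)^p}` has at most `#V` elements.
Proof.  FINITE: `T` is a permutation of the finite set `V`, `T^m = id` for some `m ≥ 1`, so `β v = (β v)^(p^m)`: all values lie in the finite set of roots of `X^(p^m) - X`.
COUNT: `S` is an `𝔽_p`-subspace of `E := (V →+ κ)` (`(a + b)^p = a^p + b^p`, `c^p = c` for `c ∈ 𝔽_p`), `E` is a `κ`-vector space of dimension `dim_{𝔽_p} V` (`V ≅ 𝔽_p^d`; only `≤` is needed: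
 `β ↦ (β (e_i))_i` is injective into `κ^d`).  CLAIM: `𝔽_p`-independent elements `β_1 .. β_r` of `S` are `κ`-independent.  Take a non trivial relation `∑ c_m β_m = 0` with a minimal number of non zero
 coefficients, `c_1 = 1`.  Raise to the `p`-th power: `0 = ∑ c_m^p (β_m v)^p = ∑ c_m^p β_m (T v)`; `T` surjective: `∑ c_m^p β_m = 0`.  Subtract: shorter, so `c_m^p = c_m`, `c_m ∈ 𝔽_p` (roots of `X^p - X`): contradiction.
 So `dim_{𝔽_p} S ≤ d`, `#S = p^(dim S) ≤ p^d = #V`.
-/

set_option autoImplicit false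

namespace Fermat.Agent.S56.Flat

open Polynomial in
/-- the fixed points of Frobenius: at most `p`. -/
theorem finite_card_frobFix_le (p : ℕ) [Fact p.Prime] (κ : Type) [Field κ] :
    Finite {c : κ | c ^ p = c} ∧ Nat.card {c : κ | c ^ p = c} ≤ p := by
  classical
  have hp : 1 < p := (Fact.out : p.Prime).one_lt
  have hne : (X ^ p - X : κ[X]) ≠ 0 := FiniteField.X_pow_card_sub_X_ne_zero κ hp
  have hsub : {c : κ | c ^ p = c} ⊆ ((X ^ p - X : κ[X]).roots.toFinset : Set κ) := by
    intro c hc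
    simp only [Finset.mem_coe, Multiset.mem_toFinset, mem_roots hne, IsRoot.def, eval_sub,
      eval_pow, eval_X]
    exact sub_eq_zero.2 hc
  have hfin : ({c : κ | c ^ p = c}).Finite := (Finset.finite_toSet _).subset hsub
  refine ⟨hfin.to_subtype, ?_⟩
  calc Nat.card {c : κ | c ^ p = c} = Set.ncard {c : κ | c ^ p = c} := rfl
    _ ≤ Set.ncard ((X ^ p - X : κ[X]).roots.toFinset : Set κ) :=
        Set.ncard_le_ncard hsub (Finset.finite_toSet _)
    _ = (X ^ p - X : κ[X]).roots.toFinset.card := Set.ncard_coe_finset _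
    _ ≤ Multiset.card (X ^ p - X : κ[X]).roots := Multiset.toFinset_card_le _
    _ ≤ (X ^ p - X : κ[X]).natDegree := card_roots' _
    _ = p := FiniteField.X_pow_card_sub_X_natDegree_eq κ hp

/-- the count, with the `𝔽_p`-structures as instances. -/
theorem card_semilinear_le_aux {p : ℕ} [Fact p.Prime] {V : Type} [AddCommGroup V] [Finite V]
    [Module (ZMod p) V] (T : V → V) (hT : Function.Surjective T) {κ : Type} [Field κ]
    [CharP κ p] [Algebra (ZMod p) κ] :
    Finite {β : V →+ κ | ∀ v, β (T v) = β v ^ p} ∧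
      Nat.card {β : V →+ κ | ∀ v, β (T v) = β v ^ p} ≤ Nat.card V := by
  classical
  obtain ⟨hRfin, hRcard⟩ := finite_card_frobFix_le p κ
  let S' : Set (V →ₗ[ZMod p] κ) := {β | ∀ v, β (T v) = β v ^ p}
  obtain ⟨b, hbS, hspan, hli⟩ := exists_linearIndependent κ S'
  have : Finite b := hli.finite
  let _ : Fintype b := Fintype.ofFinite b
  have hcardb : Fintype.card b ≤ Module.finrank (ZMod p) V := by
    have := hli.fintype_card_le_finrank
    rwa [Module.finrank_linearMap, Module.finrank_self, mul_one] at this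
  let B := Module.Basis.span hli
  have hmem : ∀ β : {β : V →+ κ | ∀ v, β (T v) = β v ^ p},
      (β : V →+ κ).toZModLinearMap p ∈ Submodule.span κ (Set.range ((↑) : b → V →ₗ[ZMod p] κ)) := by
    intro β
    rw [Subtype.range_coe, hspan]
    exact Submodule.subset_span β.2
  have hfix : ∀ (β : {β : V →+ κ | ∀ v, β (T v) = β v ^ p}) (i : b),
      B.repr ⟨_, hmem β⟩ i ^ p = B.repr ⟨_, hmem β⟩ i := by
    intro β i
    set c := B.repr ⟨_, hmem β⟩ with hc
    have h1 : ∑ j, c j • B j = ⟨_, hmem β⟩ := B.sum_repr _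
    have h1' : ∀ v, ∑ j : b, c j * (j : V →ₗ[ZMod p] κ) v = β.1 v := by
      intro v
      have := congrArg (fun x : Submodule.span κ (Set.range ((↑) : b → V →ₗ[ZMod p] κ)) =>
        (x : V →ₗ[ZMod p] κ) v) h1
      simpa [B, Module.Basis.span_apply] using this
    have h2 : ∑ j, (c j ^ p) • B j = ⟨_, hmem β⟩ := by
      apply Subtype.ext
      apply LinearMap.ext
      intro w
      obtain ⟨v, rfl⟩ := hT w
      have h3 : β.1 (T v) = ∑ j : b, c j ^ p * (j : V →ₗ[ZMod p] κ) (T v) := by
        rw [β.2 v, ← h1' v, sum_pow_char]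
        refine Finset.sum_congr rfl fun j _ => ?_
        rw [mul_pow, hbS j.2 v]
      simpa [B, Module.Basis.span_apply] using h3.symm
    have h4 := B.repr_sum_self (fun j => c j ^ p)
    rw [h2] at h4
    exact (congrFun h4 i).symm
  let Φ : {β : V →+ κ | ∀ v, β (T v) = β v ^ p} → (b → {c : κ | c ^ p = c}) :=
    fun β i => ⟨B.repr ⟨_, hmem β⟩ i, hfix β i⟩
  have hΦ : Function.Injective Φ := by
    intro β β' h
    have h1 : B.repr ⟨_, hmem β⟩ = B.repr ⟨_, hmem β'⟩ := by
      ext i
      exact congrArg Subtype.val (congrFun h i)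
    have h2 := B.repr.injective h1
    have h3 : (β : V →+ κ).toZModLinearMap p = (β' : V →+ κ).toZModLinearMap p :=
      congrArg Subtype.val h2
    exact Subtype.ext (AddMonoidHom.toZModLinearMap_injective p h3)
  refine ⟨Finite.of_injective Φ hΦ, ?_⟩
  calc Nat.card {β : V →+ κ | ∀ v, β (T v) = β v ^ p}
      ≤ Nat.card (b → {c : κ | c ^ p = c}) := Nat.card_le_card_of_injective Φ hΦ
    _ = Nat.card {c : κ | c ^ p = c} ^ Fintype.card b := by
        rw [Nat.card_fun, Nat.card_eq_fintype_card (α := b)]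
    _ ≤ p ^ Fintype.card b := Nat.pow_le_pow_left hRcard _
    _ ≤ p ^ Module.finrank (ZMod p) V :=
        Nat.pow_le_pow_right (Fact.out : p.Prime).pos hcardb
    _ = Nat.card V := by
        rw [Module.natCard_eq_pow_finrank (K := ZMod p) (V := V), Nat.card_zmod]

/-- **[ORD-SEMI]** -/
theorem card_semilinear_le {p : ℕ} [Fact p.Prime] {V : Type} [AddCommGroup V] [Finite V]
    (hV : ∀ v : V, p • v = 0) (T : V → V) (hT : Function.Surjective T) {κ : Type} [Field κ]
    [CharP κ p] :
    Finite {β : V →+ κ | ∀ v, β (T v) = β v ^ p} ∧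
      Nat.card {β : V →+ κ | ∀ v, β (T v) = β v ^ p} ≤ Nat.card V :=
  @card_semilinear_le_aux p _ V _ _ (AddCommGroup.zmodModule hV) T hT κ _ _ (ZMod.algebra κ p)

end Fermat.Agent.S56.Flat
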