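import Fermat.Agent.S56.Flat.Ord.Kum
import Fermat.Agent.S56.Flat.Ord.Semi

/-!
# S56 / Flat / Ord / U0 : proof of [ORD-U0] (`card_USet0_le_aux`, wired in `Ord/U.lean`).   See the header of `Ord/U.lean`.
-/

set_option autoImplicit false

open ExtCitation

namespace Fermat.Agent.S56.Flat

open Fermat.Agent.S56.Font
open CFT (levS levAll decomp Z1 B1 Qb)

namespace U0

variable {p : ℕ} [Fact p.Prime]

/-- the residue field of the distinguished place -/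
abbrev kap (p : ℕ) [Fact p.Prime] : Type := IsLocalRing.ResidueField ↥(Ap p)

open Classical in
/-- reduction (junk value `0` outside `A`) -/
noncomputable def rd (x : Qb) : kap p :=
  if h : x ∈ Ap p then IsLocalRing.residue ↥(Ap p) ⟨x, h⟩ else 0

lemma mem_of_val {x : Qb} (h : (Ap p).valuation x ≤ 1) : x ∈ Ap p :=
  (ValuationSubring.valuation_le_one_iff _ _).1 h

lemma rd_of_mem {x : Qb} (h : x ∈ Ap p) : rd x = IsLocalRing.residue ↥(Ap p) ⟨x, h⟩ := dif_pos h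

lemma rd_add {x y : Qb} (hx : (Ap p).valuation x ≤ 1) (hy : (Ap p).valuation y ≤ 1) :
    rd (p := p) (x + y) = rd x + rd y := by
  rw [rd_of_mem (mem_of_val hx), rd_of_mem (mem_of_val hy),
    rd_of_mem (add_mem (mem_of_val hx) (mem_of_val hy)), ← map_add]
  rfl

lemma rd_pow {x : Qb} (hx : (Ap p).valuation x ≤ 1) (n : ℕ) : rd (p := p) (x ^ n) = rd x ^ n := by
  rw [rd_of_mem (mem_of_val hx), rd_of_mem (pow_mem (mem_of_val hx) n), ← map_pow]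
  rfl

lemma rd_eq_zero_iff {x : Qb} (hx : (Ap p).valuation x ≤ 1) :
    rd (p := p) x = 0 ↔ (Ap p).valuation x < 1 := by
  rw [rd_of_mem (mem_of_val hx), IsLocalRing.residue_eq_zero_iff]
  exact ValuationSubring.valuation_lt_one_iff (Ap p) ⟨x, mem_of_val hx⟩

lemma rd_eq_of_val_sub_lt {x y : Qb} (_hx : (Ap p).valuation x ≤ 1) (hy : (Ap p).valuation y ≤ 1)
    (h : (Ap p).valuation (x - y) < 1) : rd (p := p) x = rd y := by
  have h1 : rd (p := p) (x - y) = 0 := (rd_eq_zero_iff h.le).2 h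
  have h2 : rd (p := p) x = rd (x - y) + rd y := by
    rw [← rd_add h.le hy, sub_add_cancel]
  rw [h2, h1, zero_add]

lemma val_p_lt_one : (Ap p).valuation (p : Qb) < 1 := by
  have h := liesOverPrime_primeLocalPlace (pPrime p)
  exact (ValuationSubring.mem_nonunits_iff _).1 h

instance charP_kap : CharP (kap p) p := by
  rw [CharP.charP_iff_prime_eq_zero (Fact.out : p.Prime)]
  have h1 : ((p : ℕ) : kap p) = IsLocalRing.residue ↥(Ap p) ((p : ℕ) : ↥(Ap p)) := (map_natCast _ _).symm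
  rw [h1, IsLocalRing.residue_eq_zero_iff, ValuationSubring.valuation_lt_one_iff]
  exact val_p_lt_one

variable {ζ : Qb}

lemma isKum_congr {f f' : ↥(Dp p) → ZMod p} {y : Qb} (h : IsKum ζ f y)
    (hf : ∀ σ : ↥(Dp p), (σ : GQ) ∈ Ip p → f σ = f' σ) : IsKum ζ f' y :=
  ⟨h.1, fun σ hσ => by rw [← hf σ hσ]; exact h.2.1 σ hσ, h.2.2⟩

variable {k : Type} [Field k]

/-- additive maps are `ZMod p`-linear -/
lemma map_cast_mul' [CharP k p] (t : k →+ ZMod p) (n : ZMod p) (x : k) :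
    t (ZMod.castHom (dvd_refl p) k n * x) = n * t x := by
  obtain ⟨m, rfl⟩ : ∃ m : ℕ, (m : ZMod p) = n := ⟨n.val, ZMod.natCast_zmod_val n⟩
  rw [map_natCast, ← nsmul_eq_mul, map_nsmul, nsmul_eq_mul]

lemma chiK_coe' [CharP k p] (σ : GQ) :
    (chiK p k σ : k) = ZMod.castHom (dvd_refl p) k (cycloChar p σ : ZMod p) := rfl

/-- the chosen Kummer generators -/
noncomputable def yy {u : ↥(Dp p) → k} (h : Peu ζ u) (ℓ : k →+ ZMod p) : Qb := (h ℓ).choose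

lemma yy_spec {u : ↥(Dp p) → k} (h : Peu ζ u) (ℓ : k →+ ZMod p) :
    IsKum ζ (fun σ => ℓ (u σ)) (yy h ℓ) := (h ℓ).choose_spec

/-- `β_u` -/
noncomputable def bet {u : ↥(Dp p) → k} (h : Peu ζ u) (ℓ : k →+ ZMod p) : kap p :=
  rd (tk p (yy h ℓ))

lemma bet_eq (hp2 : p ≠ 2) {u : ↥(Dp p) → k} (h : Peu ζ u) (ℓ : k →+ ZMod p) {y : Qb}
    (hy : IsKum ζ (fun σ => ℓ (u σ)) y) : bet h ℓ = rd (tk p y) :=
  rd_eq_of_val_sub_lt (yy_spec h ℓ).tk_int hy.tk_int ((yy_spec h ℓ).val_tk_sub_lt hp2 hy)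

lemma rd_tk_mul (hζ : ζ ^ p = 1) {f f' : ↥(Dp p) → ZMod p} {y y' : Qb} (h : IsKum ζ f y)
    (h' : IsKum ζ f' y') : rd (p := p) (tk p (y * y')) = rd (tk p y) + rd (tk p y') := by
  obtain ⟨h1, h2⟩ := h.mul hζ h'
  rw [← rd_add h.tk_int h'.tk_int]
  refine rd_eq_of_val_sub_lt h1.tk_int ?_ (by rwa [← sub_sub])
  exact (Valuation.map_add _ _ _).trans (max_le h.tk_int h'.tk_int)

lemma bet_add (hp2 : p ≠ 2) (hζ : ζ ^ p = 1) {u : ↥(Dp p) → k} (h : Peu ζ u) (ℓ ℓ' : k →+ ZMod p) :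
    bet h (ℓ + ℓ') = bet h ℓ + bet h ℓ' := by
  rw [bet_eq hp2 h (ℓ + ℓ') ((yy_spec h ℓ).mul hζ (yy_spec h ℓ')).1,
    rd_tk_mul hζ (yy_spec h ℓ) (yy_spec h ℓ')]
  rfl

/-- `β_u` as an additive map -/
noncomputable def betHom (hp2 : p ≠ 2) (hζ : ζ ^ p = 1) {u : ↥(Dp p) → k} (h : Peu ζ u) :
    (k →+ ZMod p) →+ kap p := AddMonoidHom.mk' (bet h) (bet_add hp2 hζ h)

section Coc

variable {ψ : ↥(Dp p) →* kˣ} {u : ↥(Dp p) → k}
  (hu : ∀ σ τ, u (σ * τ) = u σ + (ψ σ : k) * u τ)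

include hu

lemma coc_one : u 1 = 0 := by
  have := hu 1 1
  rw [mul_one, map_one, Units.val_one, one_mul] at this
  exact left_eq_add.1 this

lemma coc_conj (Φ σ : ↥(Dp p)) :
    u (Φ⁻¹ * σ * Φ) = (ψ Φ : k)⁻¹ * (u σ + ((ψ σ : k) - 1) * u Φ) := by
  have h1 : u Φ⁻¹ = - ((ψ Φ : k)⁻¹ * u Φ) := by
    have := hu Φ⁻¹ Φ
    rw [inv_mul_cancel, coc_one hu, map_inv, Units.val_inv_eq_inv_val] at this
    linear_combination -this
  rw [mul_assoc, hu, hu σ Φ, h1, map_inv, Units.val_inv_eq_inv_val]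
  ring

end Coc

/-- `T ℓ = ℓ ∘ (c * ·)` -/
def TT (c : k) (ℓ : k →+ ZMod p) : k →+ ZMod p := ℓ.comp (AddMonoidHom.mulLeft c)

lemma TT_apply (c : k) (ℓ : k →+ ZMod p) (x : k) : TT c ℓ x = ℓ (c * x) := rfl

lemma TT_surjective {c : k} (hc : c ≠ 0) : Function.Surjective (TT (p := p) c) := by
  intro ℓ
  refine ⟨TT c⁻¹ ℓ, ?_⟩
  ext x
  rw [TT_apply, TT_apply, inv_mul_cancel_left₀ hc]

/-- (c) -/
lemma bet_TT [CharP k p] (hp2 : p ≠ 2) (hζ : ζ ^ p = 1) {ψ : ↥(Dp p) →* kˣ}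
    (hψ : ∀ σ : ↥(Dp p), (σ : GQ) ∈ Ip p → ψ σ = chiK p k σ) {u : ↥(Dp p) → k}
    (hu : ∀ σ τ, u (σ * τ) = u σ + (ψ σ : k) * u τ) (h : Peu ζ u)
    {Φ : ↥(Dp p)} (hΦ : (Ap p).IsFrobeniusAt (Φ : GQ) p) (ℓ : k →+ ZMod p) :
    bet h (TT ((chiK p k Φ : k) * (ψ Φ : k)⁻¹) ℓ) = bet h ℓ ^ p := by
  set c₀ : k := (chiK p k Φ : k) * (ψ Φ : k)⁻¹ with hc₀
  have hy := yy_spec h ℓ
  obtain ⟨f1, f2⟩ := hy.frob hζ hΦ
  obtain ⟨g1, g2⟩ := f1.twist hζ (- ℓ (c₀ * u Φ))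
  have g3 : IsKum ζ (fun σ => TT c₀ ℓ (u σ)) ((Φ : GQ) (yy h ℓ) * ζ ^ (- ℓ (c₀ * u Φ)).val) := by
    refine isKum_congr g1 (fun σ hσ => ?_)
    rw [TT_apply, coc_conj hu, hψ σ hσ, ← map_cast_mul', ← chiK_coe']
    have e1 : (chiK p k σ : k) - 1 =
        ZMod.castHom (dvd_refl p) k ((cycloChar p σ : ZMod p) - 1) := by
      rw [map_sub, map_one, chiK_coe']
    have e2 : (chiK p k Φ : k) * ((ψ Φ : k)⁻¹ * (u σ + ((chiK p k σ : k) - 1) * u Φ)) =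
        c₀ * u σ + ((chiK p k σ : k) - 1) * (c₀ * u Φ) := by
      rw [hc₀]; ring
    rw [e2, map_add, e1, map_cast_mul']
    ring
  rw [bet_eq hp2 h _ g3, g2, bet, ← rd_pow hy.tk_int]
  refine rd_eq_of_val_sub_lt f1.tk_int ?_ f2
  rw [map_pow]
  exact pow_le_one₀ zero_le hy.tk_int

/-- additive functionals separate the points of `k` -/
lemma eq_zero_of_forall [CharP k p] (x : k) (h : ∀ ℓ : k →+ ZMod p, ℓ x = 0) : x = 0 := by
  let _ : Algebra (ZMod p) k := ZMod.algebra k p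
  rw [← Module.forall_dual_apply_eq_zero_iff (ZMod p)]
  intro φ
  exact h φ.toAddMonoidHom

lemma card_hom_le [CharP k p] [Finite k] : Nat.card (k →+ ZMod p) ≤ Nat.card k := by
  let _ : Algebra (ZMod p) k := ZMod.algebra k p
  have hfd : Finite (Module.Dual (ZMod p) k) :=
    Finite.of_injective (fun f : Module.Dual (ZMod p) k => (f : k → ZMod p)) DFunLike.coe_injective
  have h1 : Nat.card (k →+ ZMod p) ≤ Nat.card (Module.Dual (ZMod p) k) :=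
    Nat.card_le_card_of_injective _ (AddMonoidHom.toZModLinearMap_injective p)
  have h2 : Nat.card (Module.Dual (ZMod p) k) = Nat.card k := by
    rw [Module.natCard_eq_pow_finrank (K := ZMod p) (V := k),
      Module.natCard_eq_pow_finrank (K := ZMod p) (V := Module.Dual (ZMod p) k),
      Subspace.dual_finrank_eq]
  exact h1.trans_eq h2

instance finite_hom [Finite k] : Finite (k →+ ZMod p) :=
  Finite.of_injective (fun f : k →+ ZMod p => (f : k → ZMod p)) DFunLike.coe_injective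

/-- (a) -/
lemma eq_of_eq_on_inertia [CharP k p] {ψ : ↥(Dp p) →* kˣ}
    (hψ : ∀ σ : ↥(Dp p), (σ : GQ) ∈ Ip p → ψ σ = chiK p k σ)
    (τ₀ : ↥(Dp p)) (hτ₀ : (τ₀ : GQ) ∈ Ip p) (hχ : chiK p k τ₀ ≠ 1) {u u' : ↥(Dp p) → k}
    (hu : ∀ σ τ, u (σ * τ) = u σ + (ψ σ : k) * u τ)
    (hu' : ∀ σ τ, u' (σ * τ) = u' σ + (ψ σ : k) * u' τ)
    (h : ∀ σ : ↥(Dp p), (σ : GQ) ∈ Ip p → u σ = u' σ) : u = u' := by
  funext σ
  have hj : ((σ⁻¹ * τ₀ * σ : ↥(Dp p)) : GQ) ∈ Ip p := by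
    have := conj_mem_inertia (pPrime p).2 (liesOverPrime_primeLocalPlace (pPrime p))
      (g := (σ : GQ)⁻¹) (inv_mem σ.2) hτ₀
    rw [inv_inv] at this
    exact this
  have e : τ₀ * σ = σ * (σ⁻¹ * τ₀ * σ) := by group
  have h1 := hu τ₀ σ
  have h2 := hu' τ₀ σ
  rw [e, hu, hψ τ₀ hτ₀] at h1
  rw [e, hu', hψ τ₀ hτ₀] at h2
  rw [h _ hj, h _ hτ₀] at h1
  have h3 : ((chiK p k τ₀ : k) - 1) * (u σ - u' σ) = 0 := by linear_combination h2 - h1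
  have h4 : (chiK p k τ₀ : k) - 1 ≠ 0 := by
    rw [sub_ne_zero]
    intro h5
    exact hχ (Units.ext h5)
  exact sub_eq_zero.1 ((mul_eq_zero.1 h3).resolve_left h4)

end U0

open U0 in
/-- **[ORD-U0]** -/
theorem card_USet0_le_aux {p : ℕ} [Fact p.Prime] {k : Type} [Field k] {ζ : Qb} [Finite k] [CharP k p]
    (hp2 : p ≠ 2) (hζ1 : ζ ≠ 1) (hζ : ζ ^ p = 1) (ψ : ↥(Dp p) →* kˣ)
    (hψ : ∀ σ : ↥(Dp p), (σ : GQ) ∈ Ip p → ψ σ = chiK p k σ)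
    (τ₀ : ↥(Dp p)) (hτ₀ : (τ₀ : GQ) ∈ Ip p) (hχ : chiK p k τ₀ ≠ 1) :
    Finite {u : ↥(Dp p) → k | ((∀ σ τ, u (σ * τ) = u σ + (ψ σ : k) * u τ) ∧ Peu ζ u) ∧ u τ₀ = 0} ∧
      Nat.card {u : ↥(Dp p) → k |
        ((∀ σ τ, u (σ * τ) = u σ + (ψ σ : k) * u τ) ∧ Peu ζ u) ∧ u τ₀ = 0} ≤ Nat.card k := by
  obtain ⟨φ, hφ⟩ := exists_isFrobeniusAt (pPrime p).2 (liesOverPrime_primeLocalPlace (pPrime p))
  let Φ : ↥(Dp p) := ⟨φ, hφ.mem_decompositionSubgroup⟩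
  have hΦ : (Ap p).IsFrobeniusAt (Φ : GQ) p := hφ
  set c₀ : k := (chiK p k Φ : k) * (ψ Φ : k)⁻¹ with hc₀
  have hc₀0 : c₀ ≠ 0 := mul_ne_zero (Units.ne_zero _) (inv_ne_zero (Units.ne_zero _))
  have hV : ∀ v : k →+ ZMod p, p • v = 0 := by
    intro v
    ext x
    rw [AddMonoidHom.nsmul_apply, nsmul_eq_mul, CharP.cast_eq_zero, zero_mul]
    rfl
  obtain ⟨hfin, hcard⟩ := card_semilinear_le (p := p) (κ := kap p) hV (TT c₀) (TT_surjective hc₀0)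
  let F : {u : ↥(Dp p) → k | ((∀ σ τ, u (σ * τ) = u σ + (ψ σ : k) * u τ) ∧ Peu ζ u) ∧ u τ₀ = 0} →
      {β : (k →+ ZMod p) →+ kap p | ∀ v, β (TT c₀ v) = β v ^ p} :=
    fun u => ⟨betHom hp2 hζ u.2.1.2, fun ℓ => bet_TT hp2 hζ hψ u.2.1.1 u.2.1.2 hΦ ℓ⟩
  have hF : Function.Injective F := by
    rintro ⟨u, ⟨hu, hP⟩, hu0⟩ ⟨u', ⟨hu', hP'⟩, hu0'⟩ h
    apply Subtype.ext
    change u = u'
    have hb : ∀ ℓ, bet hP ℓ = bet hP' ℓ := fun ℓ =>
      congrArg (fun β : {β : (k →+ ZMod p) →+ kap p | ∀ v, β (TT c₀ v) = β v ^ p} => β.1 ℓ) h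
    refine eq_of_eq_on_inertia hψ τ₀ hτ₀ hχ hu hu' (fun σ hσ => ?_)
    rw [← sub_eq_zero]
    refine eq_zero_of_forall (p := p) _ (fun ℓ => ?_)
    have k1 := yy_spec hP ℓ
    have k2 := yy_spec hP' (-ℓ)
    have k3 := (k1.mul hζ k2).1
    have hneg : bet hP' (-ℓ) = - bet hP' ℓ := (betHom hp2 hζ hP').map_neg ℓ
    have k4 : rd (p := p) (tk p (yy hP ℓ * yy hP' (-ℓ))) = 0 := by
      rw [rd_tk_mul hζ k1 k2]
      change bet hP ℓ + bet hP' (-ℓ) = 0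
      rw [hneg, hb, add_neg_cancel]
    obtain ⟨j, hj⟩ := k3.exists_of_val_tk_lt hp2 hζ1 hζ ((rd_eq_zero_iff k3.tk_int).1 k4)
    have hj0 : j = 0 := by
      have h1 := hj τ₀ hτ₀
      simp only [hu0, hu0', map_zero, add_zero] at h1
      have h2 : (cycloChar p τ₀ : ZMod p) - 1 ≠ 0 := by
        rw [sub_ne_zero]
        intro h3
        apply hχ
        apply Units.ext
        rw [chiK_coe', h3, map_one, Units.val_one]
      exact (mul_eq_zero.1 h1.symm).resolve_right h2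
    have h5 := hj σ hσ
    rw [hj0, zero_mul] at h5
    rw [map_sub, sub_eq_add_neg, ← AddMonoidHom.neg_apply]
    exact h5
  exact ⟨Finite.of_injective F hF,
    (Nat.card_le_card_of_injective F hF).trans (hcard.trans card_hom_le)⟩

end Fermat.Agent.S56.Flat
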