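import Fermat.Agent.S56.Flat.Ord.Kum
import Fermat.Agent.S56.Flat.Ord.Semi
import Fermat.Agent.S56.Flat.Ord.U0

/-!
# S56 / Flat / Ord / U  [ORD-PEU0], [ORD-U0], [ORD-U] : peu ramifié cocycles `D → k(ψ)`, `ψ|_I = χ`: at most `#k²`.

`USet ψ ζ := {u : D → k | u (σ τ) = u σ + ψ σ u τ, Peu ζ u}`.   `q = #k`, `χ = chiK p k` (`(chiK p k σ : k) = ((cycloChar p σ : ZMod p)).cast`), `τ₀ ∈ I` with `χ τ₀ ≠ 1`.
[ORD-PEU0] `Peu.zero/add/smul/neg` (from `IsKum.one`, `IsKum.mul`; `ℓ ∘ (x • ·)` is again additive; `neg`: `smul (-1)`), `peu_cob` : `Peu ζ (fun σ => t * (ψ σ - 1))` if `ψ = χ` on `I`: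
   `y := ζ^(ℓ t).val`: `IsKum.twist` applied to `IsKum.one` (`ℓ (t * (χ σ - 1)) = ℓ t * (χ σ - 1)` because `χ σ` is the cast of an element of `ZMod p` and `ℓ` is additive; only `σ ∈ I` matters).
[ORD-U0]  `#{u ∈ USet | u τ₀ = 0} ≤ q`.
  (a) `u|_I = 0` ⟹ `u = 0`: `σ ∈ D`: `τ₀ σ = σ τ'`, `τ' = σ⁻¹ τ₀ σ ∈ I`; `u (τ₀ σ) = χ τ₀ * u σ`, `u (σ τ') = u σ`.
  (b) `κ := IsLocalRing.ResidueField ↥(Ap p)` (`CharP κ p`), `V := k →+ ZMod p` (`#V = q`).  For `u ∈ USet`, `ℓ ∈ V` choose `y_{u,ℓ}` (`Peu`), `β_u ℓ := residue (tk p y_{u,ℓ})` (`IsKum.tk_int`).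
      By [K2] `β_u ℓ` does not depend on the choice; by `IsKum.mul` it is additive in `ℓ` and in `u`.
  (c) `Φ ∈ D` a Frobenius (`exists_isFrobeniusAt`; a Frobenius lies in `D`).  `u (Φ⁻¹ σ Φ) = ψ(Φ)⁻¹ (u σ + (χ σ - 1) u Φ)` for `σ ∈ I`.  So [K4] + `twist`:
      `Φ y_{u,ℓ} * ζ^(-j)` is a Kummer generator of `(T ℓ) ∘ u`, `T ℓ := ℓ ∘ (c₀ * ·)`, `c₀ := χ(Φ) ψ(Φ)⁻¹ ∈ kˣ`, so `β_u (T ℓ) = (β_u ℓ)^p`.  `T` is bijective.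
  (d) `β_u = 0`, `u τ₀ = 0` ⟹ `u = 0`: [K3]: `ℓ (u σ) = j (χ σ - 1)` on `I`; at `τ₀`: `j = 0`.  So `ℓ (u σ) = 0` for all `ℓ`, so `u σ = 0` (`σ ∈ I`) (additive functionals separate the points of `k`: e.g. `Algebra.trace (ZMod p) k`, or a basis), then (a).
  (e) `u ↦ β_u` is an injective map into `{β : V →+ κ | β (T ℓ) = (β ℓ)^p}`: [ORD-SEMI].
[ORD-U] `u ↦ (u τ₀, u - (u τ₀ / (χ τ₀ - 1)) • (ψ - 1))` is injective `USet → k × {u ∈ USet | u τ₀ = 0}`.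
-/

set_option autoImplicit false

open ExtCitation

namespace Fermat.Agent.S56.Flat

open Fermat.Agent.S56.Font
open CFT (levS levAll decomp Z1 B1 Qb)

variable {p : ℕ} [Fact p.Prime] {k : Type} [Field k] {ζ : Qb}

section Peu0

theorem Peu.zero (ζ : Qb) : Peu (p := p) (k := k) ζ (fun _ => 0) := by
  intro ℓ
  refine ⟨1, ?_⟩
  simp only [map_zero]
  exact IsKum.one ζ

theorem Peu.add (hζ : ζ ^ p = 1) {u u' : ↥(Dp p) → k} (h : Peu ζ u) (h' : Peu ζ u') :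
    Peu ζ (fun σ => u σ + u' σ) := by
  intro ℓ
  obtain ⟨y, hy⟩ := h ℓ
  obtain ⟨y', hy'⟩ := h' ℓ
  refine ⟨y * y', ?_⟩
  simp only [map_add]
  exact (IsKum.mul hζ hy hy').1

theorem Peu.smul {u : ↥(Dp p) → k} (h : Peu ζ u) (x : k) : Peu ζ (fun σ => x * u σ) :=
  fun ℓ => h (ℓ.comp (AddMonoidHom.mulLeft x))

theorem Peu.congr {u u' : ↥(Dp p) → k} (h : Peu ζ u)
    (hu : ∀ σ : ↥(Dp p), (σ : GQ) ∈ Ip p → u σ = u' σ) : Peu ζ u' := by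
  intro ℓ
  obtain ⟨y, h0, h1, h2⟩ := h ℓ
  exact ⟨y, h0, fun σ hσ => by beta_reduce; rw [← hu σ hσ]; exact h1 σ hσ, h2⟩

theorem peu_cob [CharP k p] (hζ : ζ ^ p = 1) (t : k) :
    Peu ζ (fun σ : ↥(Dp p) => t * ((chiK p k σ : k) - 1)) := by
  intro ℓ
  refine ⟨1 * ζ ^ (ℓ t).val, ?_⟩
  have h := (IsKum.twist hζ (IsKum.one (p := p) ζ) (ℓ t)).1
  have e : (fun σ : ↥(Dp p) => ℓ (t * ((chiK p k σ : k) - 1))) =
      fun σ : ↥(Dp p) => 0 + ℓ t * ((cycloChar p σ : ZMod p) - 1) := by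
    funext σ
    have h1 : (chiK p k σ : k) = (((cycloChar p σ : ZMod p).val : ℕ) : k) := by
      change (ZMod.castHom (dvd_refl p) k) (cycloChar p σ : ZMod p) = _
      rw [ZMod.castHom_apply, ZMod.natCast_val]
    have h2 : t * ((chiK p k σ : k) - 1) = (cycloChar p σ : ZMod p).val • t - t := by
      rw [h1, nsmul_eq_mul]
      ring
    rw [h2, map_sub, map_nsmul, nsmul_eq_mul, ZMod.natCast_zmod_val]
    ring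
  rw [e]
  exact h

end Peu0

/-- peu ramifié cocycles with values in `k(ψ)` -/
def USet (ψ : ↥(Dp p) →* kˣ) (ζ : Qb) : Set (↥(Dp p) → k) :=
  {u | (∀ σ τ, u (σ * τ) = u σ + (ψ σ : k) * u τ) ∧ Peu ζ u}

variable [Finite k] [CharP k p]

/-- **[ORD-U0]** -/
theorem card_USet0_le (hp2 : p ≠ 2) (hζ1 : ζ ≠ 1) (hζ : ζ ^ p = 1) (ψ : ↥(Dp p) →* kˣ)
    (hψ : ∀ σ : ↥(Dp p), (σ : GQ) ∈ Ip p → ψ σ = chiK p k σ)
    (τ₀ : ↥(Dp p)) (hτ₀ : (τ₀ : GQ) ∈ Ip p) (hχ : chiK p k τ₀ ≠ 1) :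
    Finite {u : ↥(Dp p) → k | u ∈ USet ψ ζ ∧ u τ₀ = 0} ∧
      Nat.card {u : ↥(Dp p) → k | u ∈ USet ψ ζ ∧ u τ₀ = 0} ≤ Nat.card k :=
  card_USet0_le_aux hp2 hζ1 hζ ψ hψ τ₀ hτ₀ hχ

/-- **[ORD-U]** -/
theorem card_USet_le (hp2 : p ≠ 2) (hζ1 : ζ ≠ 1) (hζ : ζ ^ p = 1) (ψ : ↥(Dp p) →* kˣ)
    (hψ : ∀ σ : ↥(Dp p), (σ : GQ) ∈ Ip p → ψ σ = chiK p k σ) :
    Finite (USet ψ ζ) ∧ Nat.card (USet ψ ζ) ≤ Nat.card k ^ 2 := by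
  obtain ⟨τ, hτI, hτχ⟩ := chiK_inert_ne_one (p := p) (k := k) hp2
  let τ₀ : ↥(Dp p) := ⟨τ, inert_le_decomp _ hτI⟩
  have hτ₀ : (τ₀ : GQ) ∈ Ip p := hτI
  have hχ : chiK p k τ₀ ≠ 1 := hτχ
  obtain ⟨hfin, hcard⟩ := card_USet0_le hp2 hζ1 hζ ψ hψ τ₀ hτ₀ hχ
  have hd : ((ψ τ₀ : kˣ) : k) - 1 ≠ 0 := by
    rw [hψ τ₀ hτ₀, sub_ne_zero]
    intro h
    exact hχ (Units.ext h)
  -- the normalised cocycle
  have hmem : ∀ u ∈ USet ψ ζ, (fun σ => u σ + (-(u τ₀ / ((ψ τ₀ : k) - 1))) * ((ψ σ : k) - 1)) ∈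
      {u : ↥(Dp p) → k | u ∈ USet ψ ζ ∧ u τ₀ = 0} := by
    intro u hu
    refine ⟨⟨fun σ τ' => ?_, ?_⟩, ?_⟩
    · show u (σ * τ') + _ * ((ψ (σ * τ') : k) - 1) = _
      rw [hu.1 σ τ', map_mul, Units.val_mul]
      ring
    · refine Peu.add hζ hu.2 ((peu_cob hζ (-(u τ₀ / ((ψ τ₀ : k) - 1)))).congr fun σ hσ => ?_)
      rw [hψ σ hσ]
    · show u τ₀ + (-(u τ₀ / ((ψ τ₀ : k) - 1))) * ((ψ τ₀ : k) - 1) = 0
      rw [neg_mul, div_mul_cancel₀ _ hd, add_neg_cancel]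
  have hinj : Function.Injective (fun u : USet ψ ζ =>
      ((u : ↥(Dp p) → k) τ₀,
        (⟨_, hmem u.1 u.2⟩ : {u : ↥(Dp p) → k | u ∈ USet ψ ζ ∧ u τ₀ = 0}))) := by
    intro u u' h
    simp only [Prod.mk.injEq] at h
    obtain ⟨h1, h2⟩ := h
    apply Subtype.ext
    funext σ
    have h3 := congrFun (congrArg Subtype.val h2) σ
    simp only [h1] at h3
    exact add_right_cancel h3
  refine ⟨Finite.of_injective _ hinj, ?_⟩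
  calc Nat.card (USet ψ ζ)
      ≤ Nat.card (k × {u : ↥(Dp p) → k | u ∈ USet ψ ζ ∧ u τ₀ = 0}) :=
        Nat.card_le_card_of_injective _ hinj
    _ = Nat.card k * Nat.card {u : ↥(Dp p) → k | u ∈ USet ψ ζ ∧ u τ₀ = 0} := Nat.card_prod _ _
    _ ≤ Nat.card k * Nat.card k := Nat.mul_le_mul_left _ hcard
    _ = Nat.card k ^ 2 := by ring

end Fermat.Agent.S56.Flat
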