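import Fermat.Agent.S56.Flat.Ord.U

/-!
# S56 / Flat / Ord / Z  [ORD-Z], [ORD-ZB] : the flat-ordinary local condition and its cardinality.

`rbar` with `IsUT p rbar`: for `σ ∈ D`: `rbar σ = (x b; 0 z)`, `x z = χ σ`, `z = 1` on `I`.  `ψ := x / z : D →* kˣ`, `ψ = χ` on `I`.
For an upper triangular `M = (a u; 0 -a)`:  `rbar σ * M * rbar σ⁻¹ = (a, ψ u - 2 a b / z; 0, -a)`   (`rbar σ⁻¹ = (rbar σ)⁻¹ = (1/x, -b/(x z); 0, 1/z)`).
`ZordF rbar ζ := {c ∈ Z1loc | (c σ) 1 0 = 0 on D, (c σ) 1 1 = 0 on I, Peu ζ ((c ·) 0 1)}`.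
[ORD-Z] `#ZordF ≤ q³`.  `a σ := (c σ) 0 0` is additive on `D` (formula above), `= 0` on `I` (trace `0`), continuous.  The linear map `c ↦ a Φ` (`Φ` a Frobenius) has kernel `{c | a = 0}`:
   `a Φ = 0` ⟹ `a = 0` (`exists_frob_pow_mul_inertia` with `L` a level of continuity of `c`, or `eq_zero_of_unramified` for the trivial representation).  If `a = 0` then `u := (c ·) 0 1 ∈ USet ψ ζ` and `c` is determined by `u`.
   So `#ZordF ≤ q * #USet ≤ q³` ([ORD-U]).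
[ORD-ZB] `#(ZordF ⊔ B1loc) ≤ q⁴`.  For `w = (a' u'; 0 -a')`: `d01 w σ = (0, (ψ σ - 1) u' - 2 a' b σ / z σ; 0, 0)`; on `I` this is `(χ σ - 1) u' - 2 a' b σ`: `Peu` by `peu_cob`, `hb`, `Peu.add/smul/congr`; `d01 w ∈ Z1loc` (`B1loc_le_Z1loc`).
   So `d01 w ∈ ZordF`.  Every `w ∈ sl2 k` is `w₁ + t E₂₁` with `w₁` upper triangular: `ZordF ⊔ B1loc = {c + t • d01 E₂₁}` is the image of `ZordF × k`.
-/

set_option autoImplicit false

open ExtCitation

namespace Fermat.Agent.S56.Flat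

open Fermat.Agent.S56.Font
open CFT (levS levAll decomp Z1 B1 Qb)

variable {p : ℕ} [Fact p.Prime] {k : Type} [Field k] {ζ : Qb}

/-- the flat-ordinary cocycles in upper triangular form -/
noncomputable def ZordF (rbar : GQ →* M2 k) (ζ : Qb) (hζ : ζ ^ p = 1) :
    Submodule k (↥(Dp p) → sl2 k) where
  carrier := {c | c ∈ Z1loc (adRep rbar) (pPrime p) ∧ (∀ σ, ((c σ : sl2 k) : M2 k) 1 0 = 0) ∧
    (∀ σ : ↥(Dp p), (σ : GQ) ∈ Ip p → ((c σ : sl2 k) : M2 k) 1 1 = 0) ∧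
    Peu ζ (fun σ => ((c σ : sl2 k) : M2 k) 0 1)}
  add_mem' := by
    rintro a b ⟨ha1, ha2, ha3, ha4⟩ ⟨hb1, hb2, hb3, hb4⟩
    refine ⟨add_mem ha1 hb1, fun σ => ?_, fun σ hσ => ?_, ?_⟩
    · simp [ha2 σ, hb2 σ]
    · simp [ha3 σ hσ, hb3 σ hσ]
    · exact (ha4.add hζ hb4).congr fun σ _ => by simp
  zero_mem' := ⟨zero_mem _, fun σ => by simp, fun σ _ => by simp,
    (Peu.zero ζ).congr fun σ _ => by simp⟩
  smul_mem' := by
    rintro t a ⟨ha1, ha2, ha3, ha4⟩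
    refine ⟨Submodule.smul_mem _ t ha1, fun σ => ?_, fun σ hσ => ?_, ?_⟩
    · simp [ha2 σ]
    · simp [ha3 σ hσ]
    · exact (ha4.smul t).congr fun σ _ => by simp

section Gen

/-- counting along an additive map -/
theorem card_le_of_addHom {M N : Type*} [AddCommGroup M] [AddCommGroup N] [Finite N] (f : M →+ N)
    {n : ℕ} (hfin : Finite f.ker) (hcard : Nat.card f.ker ≤ n) :
    Finite M ∧ Nat.card M ≤ Nat.card N * n := by
  classical
  let rep : N → M := fun y => if h : ∃ m, f m = y then h.choose else 0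
  have hrep : ∀ m, f (rep (f m)) = f m := by
    intro m
    have h : ∃ m', f m' = f m := ⟨m, rfl⟩
    simp only [rep, dif_pos h]
    exact h.choose_spec
  let g : M → N × f.ker := fun m =>
    (f m, ⟨m - rep (f m), by rw [AddMonoidHom.mem_ker, map_sub, hrep, sub_self]⟩)
  have hg : Function.Injective g := by
    intro m m' h
    have h1 : f m = f m' := congrArg Prod.fst h
    have h2 : m - rep (f m) = m' - rep (f m') := congrArg (fun x => (x.2 : M)) h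
    rw [h1] at h2
    exact sub_left_injective h2
  refine ⟨Finite.of_injective g hg, (Nat.card_le_card_of_injective g hg).trans ?_⟩
  rw [Nat.card_prod]
  exact Nat.mul_le_mul_left _ hcard

/-- conjugation of an upper triangular trace zero matrix -/
lemma ut_conj {x b z x' b' z' : k} (hx : x * x' = 1) (hz : z * z' = 1) (hb : x * b' + b * z' = 0)
    (a u : k) :
    !![x, b; 0, z] * !![a, u; 0, -a] * !![x', b'; 0, z'] =
      !![a, x * z' * u - 2 * a * (b * z'); 0, -a] := by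
  ext i j
  fin_cases i <;> fin_cases j
  · simp
    linear_combination a * hx
  · simp
    linear_combination a * hb
  · simp
  · simp
    linear_combination a * hz

lemma sl2_form (w : sl2 k) (h : (w : M2 k) 1 0 = 0) :
    (w : M2 k) = !![(w : M2 k) 0 0, (w : M2 k) 0 1; 0, -((w : M2 k) 0 0)] := by
  have htr := (mem_sl2 _).1 w.2
  rw [Matrix.trace_fin_two] at htr
  ext i j
  fin_cases i <;> fin_cases j <;> simp
  · exact h
  · linear_combination htr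

end Gen

variable {rbar : GQ →* M2 k}

lemma IsUT.shape (h : IsUT p rbar) (σ : ↥(Dp p)) :
    ∃ x' b' z' : k, rbar σ = !![rbar σ 0 0, rbar σ 0 1; 0, rbar σ 1 1] ∧
      rbar (σ : GQ)⁻¹ = !![x', b'; 0, z'] ∧ rbar σ 0 0 * x' = 1 ∧ rbar σ 1 1 * z' = 1 ∧
      rbar σ 0 0 * b' + rbar σ 0 1 * z' = 0 := by
  have e1 : rbar σ = !![rbar σ 0 0, rbar σ 0 1; 0, rbar σ 1 1] := by
    conv_lhs => rw [Matrix.eta_fin_two (rbar σ), h.tri σ σ.2]
  have e2 : rbar (σ : GQ)⁻¹ = !![rbar (σ : GQ)⁻¹ 0 0, rbar (σ : GQ)⁻¹ 0 1; 0, rbar (σ : GQ)⁻¹ 1 1] := by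
    conv_lhs => rw [Matrix.eta_fin_two (rbar (σ : GQ)⁻¹), h.tri _ ((Dp p).inv_mem σ.2)]
  have h3 : rbar σ * rbar (σ : GQ)⁻¹ = 1 := by rw [← map_mul, mul_inv_cancel, map_one]
  refine ⟨_, _, _, e1, e2, ?_, ?_, ?_⟩
  · have := congrFun (congrFun h3 0) 0
    rw [Matrix.mul_apply, Fin.sum_univ_two, h.tri _ ((Dp p).inv_mem σ.2)] at this
    simpa using this
  · have := congrFun (congrFun h3 1) 1
    rw [Matrix.mul_apply, Fin.sum_univ_two, h.tri σ σ.2] at this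
    simpa using this
  · have := congrFun (congrFun h3 0) 1
    rw [Matrix.mul_apply, Fin.sum_univ_two] at this
    simpa using this

/-- the diagonal characters -/
noncomputable def IsUT.dHom (h : IsUT p rbar) (i : Fin 2) : ↥(Dp p) →* k where
  toFun σ := rbar σ i i
  map_one' := by simp
  map_mul' σ τ := by
    rw [Subgroup.coe_mul, map_mul, Matrix.mul_apply, Fin.sum_univ_two]
    fin_cases i
    · simp [h.tri τ τ.2]
    · simp [h.tri σ σ.2]

/-- `ψ = x / z` -/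
noncomputable def IsUT.psi (h : IsUT p rbar) : ↥(Dp p) →* kˣ :=
  (h.dHom 0).toHomUnits / (h.dHom 1).toHomUnits

lemma IsUT.psi_coe (h : IsUT p rbar) (σ : ↥(Dp p)) {z' : k} (hz : rbar σ 1 1 * z' = 1) :
    (h.psi σ : k) = rbar σ 0 0 * z' := by
  have h1 : (h.psi σ : k) = rbar σ 0 0 / rbar σ 1 1 := by
    rw [IsUT.psi, MonoidHom.div_apply, Units.val_div_eq_div_val]
    rfl
  rw [h1, div_eq_mul_inv, eq_comm]
  congr 1
  exact eq_inv_of_mul_eq_one_right hz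

lemma IsUT.psi_eq_chi [CharP k p] (h : IsUT p rbar) (hdet : ∀ σ, (rbar σ).det = (chiK p k σ : k))
    (σ : ↥(Dp p)) (hσ : (σ : GQ) ∈ Ip p) : h.psi σ = chiK p k σ := by
  apply Units.ext
  have h1 := h.one σ hσ
  rw [h.psi_coe σ (z' := 1) (by rw [h1, mul_one]), mul_one, ← hdet σ, Matrix.det_fin_two, h1,
    h.tri σ σ.2]
  ring

/-- the action on upper triangular matrices -/
lemma IsUT.ad_coe (h : IsUT p rbar) (σ : ↥(Dp p)) (w : sl2 k) (hw : (w : M2 k) 1 0 = 0) :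
    ∃ z' : k, rbar σ 1 1 * z' = 1 ∧ ((adRep rbar σ w : sl2 k) : M2 k) =
      !![(w : M2 k) 0 0, (h.psi σ : k) * (w : M2 k) 0 1 - 2 * (w : M2 k) 0 0 * (rbar σ 0 1 * z');
        0, -((w : M2 k) 0 0)] := by
  obtain ⟨x', b', z', e1, e2, e3, e4, e5⟩ := h.shape σ
  refine ⟨z', e4, ?_⟩
  rw [adRep_apply_coe, e2, sl2_form w hw]
  conv_lhs => rw [e1]
  rw [ut_conj e3 e4 e5, h.psi_coe σ e4]
  simp

lemma ZordF.coc {hζ : ζ ^ p = 1} {c : ↥(Dp p) → sl2 k} (hc : c ∈ ZordF rbar ζ hζ)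
    (hUT : IsUT p rbar) (g h : ↥(Dp p)) :
    ∃ z' : k, rbar g 1 1 * z' = 1 ∧
      ((c (g * h) : sl2 k) : M2 k) 0 0 = ((c g : sl2 k) : M2 k) 0 0 + ((c h : sl2 k) : M2 k) 0 0 ∧
      ((c (g * h) : sl2 k) : M2 k) 0 1 = ((c g : sl2 k) : M2 k) 0 1 +
        ((hUT.psi g : k) * ((c h : sl2 k) : M2 k) 0 1 -
          2 * ((c h : sl2 k) : M2 k) 0 0 * (rbar g 0 1 * z')) := by
  have h1 := IsCocLoc.of_mem hc.1 g h
  obtain ⟨z', hz', h2⟩ := hUT.ad_coe g (c h) (hc.2.1 h)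
  refine ⟨z', hz', ?_, ?_⟩
  · rw [h1, Submodule.coe_add, Matrix.add_apply, h2]
    simp
  · rw [h1, Submodule.coe_add, Matrix.add_apply, h2]
    simp

/-- the diagonal entry is a cocycle for the trivial representation -/
lemma ZordF.diag_mem {hζ : ζ ^ p = 1} {c : ↥(Dp p) → sl2 k} (hc : c ∈ ZordF rbar ζ hζ)
    (hUT : IsUT p rbar) :
    (fun σ => ((c σ : sl2 k) : M2 k) 0 0) ∈ Z1loc (Representation.trivial k GQ k) (pPrime p) := by
  refine ⟨(isCocLoc_iff _ _ _).1 fun g h => ?_,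
    CFT.Levels.LC1.comp hc.1.2 (fun w : sl2 k => (w : M2 k) 0 0)⟩
  obtain ⟨-, -, h1, -⟩ := ZordF.coc hc hUT g h
  rw [h1]
  rfl

variable [Finite k] [CharP k p]

/-- **[ORD-Z]** -/
theorem card_ZordF_le (hp2 : p ≠ 2) (hζ1 : ζ ≠ 1) (hζ : ζ ^ p = 1) (rbar : GQ →* M2 k)
    (hdet : ∀ σ, (rbar σ).det = (chiK p k σ : k)) (hUT : IsUT p rbar) :
    Finite ↥(ZordF rbar ζ hζ) ∧ Nat.card ↥(ZordF rbar ζ hζ) ≤ Nat.card k ^ 3 := by
  obtain ⟨φ, hφ⟩ := exists_isFrobeniusAt (pPrime p).2 (liesOverPrime_primeLocalPlace (pPrime p))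
  have hφD := hφ.mem_decompositionSubgroup
  let φ' : ↥(Dp p) := ⟨φ, hφD⟩
  let f : ↥(ZordF rbar ζ hζ) →+ k :=
    { toFun := fun c => ((c.1 φ' : sl2 k) : M2 k) 0 0
      map_zero' := by simp
      map_add' := by intro a b; simp }
  obtain ⟨hUfin, hUcard⟩ := card_USet_le hp2 hζ1 hζ hUT.psi (hUT.psi_eq_chi hdet)
  have hker : ∀ c : f.ker, ∀ σ, ((c.1.1 σ : sl2 k) : M2 k) 0 0 = 0 := by
    intro c σ
    have := eq_zero_of_unramified (Representation.trivial k GQ k) (pPrime p) hφ hφD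
      (ZordF.diag_mem c.1.2 hUT) (fun σ hσ => ?_) c.2
    · exact congrFun this σ
    · have htr := (mem_sl2 _).1 (c.1.1 σ).2
      rw [Matrix.trace_fin_two, c.1.2.2.2.1 σ hσ, add_zero] at htr
      exact htr
  let T : f.ker → USet hUT.psi ζ := fun c =>
    ⟨fun σ => ((c.1.1 σ : sl2 k) : M2 k) 0 1, fun g h => by
      obtain ⟨z', -, -, h2⟩ := ZordF.coc c.1.2 hUT g h
      rw [hker c h] at h2
      show ((c.1.1 (g * h) : sl2 k) : M2 k) 0 1 = ((c.1.1 g : sl2 k) : M2 k) 0 1 +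
        (hUT.psi g : k) * ((c.1.1 h : sl2 k) : M2 k) 0 1
      rw [h2]
      ring, c.1.2.2.2.2⟩
  have hT : Function.Injective T := by
    intro c c' h
    apply Subtype.ext
    apply Subtype.ext
    funext σ
    apply Subtype.ext
    have h1 : ((c.1.1 σ : sl2 k) : M2 k) 0 1 = ((c'.1.1 σ : sl2 k) : M2 k) 0 1 :=
      congrFun (congrArg Subtype.val h) σ
    rw [sl2_form _ (c.1.2.2.1 σ), sl2_form _ (c'.1.2.2.1 σ), hker c σ, hker c' σ, h1]
  obtain ⟨h1, h2⟩ := card_le_of_addHom f (Finite.of_injective T hT)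
    ((Nat.card_le_card_of_injective T hT).trans hUcard)
  refine ⟨h1, h2.trans (le_of_eq ?_)⟩
  ring

/-- `E₂₁` -/
def e21 (k : Type) [Field k] : sl2 k :=
  ⟨!![0, 0; 1, 0], by rw [mem_sl2, Matrix.trace_fin_two_of, add_zero]⟩

omit [Finite k] in
lemma d01_mem_ZordF (hζ : ζ ^ p = 1) (hB : B1loc (adRep rbar) (pPrime p) ≤ Z1loc (adRep rbar) (pPrime p))
    (hdet : ∀ σ, (rbar σ).det = (chiK p k σ : k)) (hUT : IsUT p rbar)
    (hb : Peu ζ (fun σ : ↥(Dp p) => rbar σ 0 1)) (w : sl2 k) (hw : (w : M2 k) 1 0 = 0) :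
    CFT.d01 (locRep (adRep rbar) (pPrime p)) w ∈ ZordF rbar ζ hζ := by
  have hcoe : ∀ σ : ↥(Dp p), ((CFT.d01 (locRep (adRep rbar) (pPrime p)) w σ : sl2 k) : M2 k) =
      ((adRep rbar σ w : sl2 k) : M2 k) - (w : M2 k) := fun σ => rfl
  have htr := (mem_sl2 _).1 w.2
  rw [Matrix.trace_fin_two] at htr
  refine ⟨hB ⟨w, rfl⟩, fun σ => ?_, fun σ _ => ?_, ?_⟩
  · obtain ⟨z', -, h2⟩ := hUT.ad_coe σ w hw
    rw [hcoe, h2, Matrix.sub_apply, hw]
    simp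
  · obtain ⟨z', -, h2⟩ := hUT.ad_coe σ w hw
    rw [hcoe, h2, Matrix.sub_apply]
    simp
    linear_combination (-1 : k) * htr
  · refine ((peu_cob hζ ((w : M2 k) 0 1)).add hζ (hb.smul (-2 * (w : M2 k) 0 0))).congr
      fun σ hσ => ?_
    obtain ⟨z', hz', h2⟩ := hUT.ad_coe σ w hw
    rw [hUT.one σ hσ, one_mul] at hz'
    rw [hcoe, h2, Matrix.sub_apply, hUT.psi_eq_chi hdet σ hσ, hz']
    simp
    ring

/-- **[ORD-ZB]** -/
theorem card_ZordF_sup_le (hp2 : p ≠ 2) (hζ1 : ζ ≠ 1) (hζ : ζ ^ p = 1) (rbar : GQ →* M2 k)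
    (hcont : GaloisFactorsThroughFiniteLevel rbar)
    (hdet : ∀ σ, (rbar σ).det = (chiK p k σ : k)) (hUT : IsUT p rbar)
    (hb : Peu ζ (fun σ : ↥(Dp p) => rbar σ 0 1)) :
    Finite ↥(ZordF rbar ζ hζ ⊔ B1loc (adRep rbar) (pPrime p)) ∧
      Nat.card ↥(ZordF rbar ζ hζ ⊔ B1loc (adRep rbar) (pPrime p)) ≤ Nat.card k ^ 4 := by
  have hB : B1loc (adRep rbar) (pPrime p) ≤ Z1loc (adRep rbar) (pPrime p) :=
    B1loc_le_Z1loc _ (isSmooth_adRep rbar hcont) _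
  obtain ⟨hZfin, hZcard⟩ := card_ZordF_le hp2 hζ1 hζ rbar hdet hUT
  set ZZ := ZordF rbar ζ hζ with hZZ
  let F : ZZ × k → ↥(ZZ ⊔ B1loc (adRep rbar) (pPrime p)) := fun x =>
    ⟨(x.1 : ↥(Dp p) → sl2 k) + x.2 • CFT.d01 (locRep (adRep rbar) (pPrime p)) (e21 k),
      Submodule.add_mem _ (Submodule.mem_sup_left x.1.2)
        (Submodule.smul_mem _ _ (Submodule.mem_sup_right ⟨_, rfl⟩))⟩
  have hF : Function.Surjective F := by
    rintro ⟨y, hy⟩
    obtain ⟨c, hc, b, ⟨w, rfl⟩, rfl⟩ := Submodule.mem_sup.1 hy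
    set s : k := (w : M2 k) 1 0 with hs
    have hw1 : ((w - s • e21 k : sl2 k) : M2 k) 1 0 = 0 := by
      have : ((w - s • e21 k : sl2 k) : M2 k) = (w : M2 k) - s • !![0, 0; 1, 0] := rfl
      rw [this]
      simp [hs]
    have hmem : CFT.d01 (locRep (adRep rbar) (pPrime p)) (w - s • e21 k) ∈ ZZ :=
      d01_mem_ZordF hζ hB hdet hUT hb _ hw1
    refine ⟨(⟨c + CFT.d01 (locRep (adRep rbar) (pPrime p)) (w - s • e21 k),
      ZZ.add_mem hc hmem⟩, s), ?_⟩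
    apply Subtype.ext
    show c + CFT.d01 (locRep (adRep rbar) (pPrime p)) (w - s • e21 k) +
      s • CFT.d01 (locRep (adRep rbar) (pPrime p)) (e21 k)
        = c + CFT.d01 (locRep (adRep rbar) (pPrime p)) w
    rw [map_sub, map_smul]
    abel
  refine ⟨Finite.of_surjective F hF, (Nat.card_le_card_of_surjective F hF).trans ?_⟩
  rw [Nat.card_prod, pow_succ]
  exact Nat.mul_le_mul_right _ hZcard

end Fermat.Agent.S56.Flat
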